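/-
T14 (S14 = ExtVanishingCts p) -- shared definitions.
Everything lives in namespace Fermat.Agent.S14.  This file is FROZEN once landed: do not edit,
put new definitions in your own file.
-/
import Mathlib

set_option autoImplicit false

open NumberField nonZeroDivisors

namespace Fermat.Agent.S14

section General

variable (K L : Type*) [Field K] [NumberField K] [Field L] [NumberField L] [Algebra K L]

/-- The relative ideal norm, restricted to nonzero ideals. -/
noncomputable def relNorm0 : (Ideal (𝓞 L))⁰ →* (Ideal (𝓞 K))⁰ where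
  toFun I := ⟨Ideal.relNorm (𝓞 K) (I : Ideal (𝓞 L)), mem_nonZeroDivisors_of_ne_zero (by
    rw [Ne, Ideal.zero_eq_bot, Ideal.relNorm_eq_bot_iff, ← Ideal.zero_eq_bot]
    exact nonZeroDivisors.ne_zero I.2)⟩
  map_one' := by
    ext1
    simp [Ideal.one_eq_top]
  map_mul' I J := by
    ext1
    simp

@[simp] lemma coe_relNorm0 (I : (Ideal (𝓞 L))⁰) :
    ((relNorm0 K L I : (Ideal (𝓞 K))⁰) : Ideal (𝓞 K)) = Ideal.relNorm (𝓞 K) (I : Ideal (𝓞 L)) := rfl

/-- The subgroup of the ideal class group of `K` generated by the classes of the relative norms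
of the nonzero ideals of `L` (`N_{L/K} Cl(L)`). -/
noncomputable def normClasses : Subgroup (ClassGroup (𝓞 K)) :=
  Subgroup.closure (Set.range (ClassGroup.mk0.comp (relNorm0 K L)))

/-- `L/K` (Galois) is unramified at every finite prime: all inertia groups are trivial. -/
def UnramifiedEverywhere [IsGalois K L] : Prop :=
  ∀ P : Ideal (𝓞 L), P.IsPrime → P ≠ ⊥ → ∀ τ : L ≃ₐ[K] L, (∀ x : 𝓞 L, τ • x - x ∈ P) → τ = 1

/-- A choice of Frobenius element at the prime `𝔭` of `K` (Frobenius of a chosen prime of `L`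
above `𝔭`; `1` if `𝔭` is not a nonzero prime).  Only meaningful (independent of the choice) when
`L/K` is abelian and `𝔭` is unramified. -/
noncomputable def frobAt [IsGalois K L] (𝔭 : Ideal (𝓞 K)) : L ≃ₐ[K] L :=
  open Classical in
  if h : ∃ P : Ideal (𝓞 L), P.IsPrime ∧ P ≠ ⊥ ∧ P.under (𝓞 K) = 𝔭 then
    haveI : h.choose.IsPrime := h.choose_spec.1
    haveI : Finite (𝓞 L ⧸ h.choose) := Ideal.finiteQuotientOfFreeOfNeBot _ h.choose_spec.2.1
    arithFrobAt (𝓞 K) (L ≃ₐ[K] L) h.choose
  else 1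

open scoped IsMulCommutative in
/-- The Artin map of an abelian extension on nonzero integral ideals of `K`
(only meaningful when `L/K` is unramified everywhere). -/
noncomputable def artinMap [IsAbelianGalois K L] : (Ideal (𝓞 K))⁰ →* (L ≃ₐ[K] L) where
  toFun I := ((UniqueFactorizationMonoid.normalizedFactors (I : Ideal (𝓞 K))).map (frobAt K L)).prod
  map_one' := by
    rw [Submonoid.coe_one, UniqueFactorizationMonoid.normalizedFactors_one]
    simp
  map_mul' I J := by
    have hI : (I : Ideal (𝓞 K)) ≠ 0 := nonZeroDivisors.ne_zero I.2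
    have hJ : (J : Ideal (𝓞 K)) ≠ 0 := nonZeroDivisors.ne_zero J.2
    simp [UniqueFactorizationMonoid.normalizedFactors_mul hI hJ]

end General

/-- The setting of the Core Arithmetic Theorem: `K = ℚ(ζ_p) ⊆ L`, `L/ℚ` Galois, `[L:K] = p`,
`L/K` unramified at all finite primes, the primes above `p` totally split in `L/K`
(trivial decomposition groups), and `Gal(K/ℚ)` acts on `Gal(L/K)` through the inverse of the
cyclotomic character (`σ⁻¹ τ σ = τ ^ n` whenever `σ ζ = ζ ^ n`). -/
structure CATSetting (p : ℕ) (L : Type) [Field L] [NumberField L] (K : IntermediateField ℚ L) :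
    Prop where
  prime : p.Prime
  three_le : 3 ≤ p
  galois : IsGalois ℚ L
  cyclo : IsCyclotomicExtension {p} ℚ K
  deg : Module.finrank K L = p
  unram : haveI := galois; UnramifiedEverywhere K L
  split_p : ∀ P : Ideal (𝓞 L), P.IsPrime → (p : 𝓞 L) ∈ P → ∀ τ : L ≃ₐ[K] L,
    (∀ x : 𝓞 L, x ∈ P → τ • x ∈ P) → τ = 1
  act : ∀ (σ : L ≃ₐ[ℚ] L) (τ : L ≃ₐ[K] L) (ζ : L) (n : ℕ), IsPrimitiveRoot ζ p → σ ζ = ζ ^ n →
    σ⁻¹ * τ.restrictScalars ℚ * σ = (τ.restrictScalars ℚ) ^ n

end Fermat.Agent.S14
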