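/-
T14 package AR: basic facts on `frobAt` / `artinMap` of `Defs.lean`
(Frobenius elements and the Artin map of an abelian, unramified extension of number fields).
-/
import Fermat.Agent.S14.Defs

set_option autoImplicit false
set_option linter.unusedSectionVars false

open NumberField nonZeroDivisors
open scoped Pointwise

namespace Fermat.Agent.S14

section General

variable (K L : Type*) [Field K] [NumberField K] [Field L] [NumberField L] [Algebra K L]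

/-- A nonzero prime of `𝓞 K` has a (nonzero) prime of `𝓞 L` above it. -/
theorem exists_prime_over {𝔭 : Ideal (𝓞 K)} [𝔭.IsPrime] (h𝔭 : 𝔭 ≠ ⊥) :
    ∃ P : Ideal (𝓞 L), P.IsPrime ∧ P ≠ ⊥ ∧ P.under (𝓞 K) = 𝔭 := by
  obtain ⟨P, hP, hPo⟩ := Ideal.exists_ideal_over_prime_of_isIntegral 𝔭 (⊥ : Ideal (𝓞 L))
    (by simp)
  refine ⟨P, hPo.1, ?_, hPo.2⟩
  rintro rfl
  apply h𝔭
  rw [← hPo.2]
  exact Ideal.under_bot ..

variable [IsGalois K L]

/-- The defining property of `frobAt`: it is a Frobenius element at SOME prime above `𝔭`. -/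
theorem frobAt_spec {𝔭 : Ideal (𝓞 K)}
    (h : ∃ P : Ideal (𝓞 L), P.IsPrime ∧ P ≠ ⊥ ∧ P.under (𝓞 K) = 𝔭) :
    ∃ P : Ideal (𝓞 L), P.IsPrime ∧ P ≠ ⊥ ∧ P.under (𝓞 K) = 𝔭 ∧
      IsArithFrobAt (𝓞 K) (frobAt K L 𝔭) P := by
  classical
  refine ⟨h.choose, h.choose_spec.1, h.choose_spec.2.1, h.choose_spec.2.2, ?_⟩
  have : h.choose.IsPrime := h.choose_spec.1
  have : Finite (𝓞 L ⧸ h.choose) := Ideal.finiteQuotientOfFreeOfNeBot _ h.choose_spec.2.1
  unfold frobAt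
  rw [dif_pos h]
  exact IsArithFrobAt.arithFrobAt (𝓞 K) (L ≃ₐ[K] L) h.choose

/-- `frobAt` at something that is not a nonzero prime (with a prime above) is `1`. -/
theorem frobAt_of_not {𝔭 : Ideal (𝓞 K)}
    (h : ¬ ∃ P : Ideal (𝓞 L), P.IsPrime ∧ P ≠ ⊥ ∧ P.under (𝓞 K) = 𝔭) : frobAt K L 𝔭 = 1 := by
  classical
  unfold frobAt
  rw [dif_neg h]

/-- A Frobenius element at `P` lies in the decomposition group of `P`. -/
theorem frobAt_spec' {𝔭 : Ideal (𝓞 K)} [𝔭.IsPrime] (h𝔭 : 𝔭 ≠ ⊥) :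
    ∃ P : Ideal (𝓞 L), P.IsPrime ∧ P ≠ ⊥ ∧ P.under (𝓞 K) = 𝔭 ∧
      IsArithFrobAt (𝓞 K) (frobAt K L 𝔭) P :=
  frobAt_spec K L (exists_prime_over K L h𝔭)

end General

section Order

/-- In a finite field in which every element satisfies `x ^ m = x` (`m ≥ 2`) there are at most
`m` elements. -/
theorem natCard_le_of_forall_pow_eq {F : Type*} [Field F] [Finite F] {m : ℕ} (hm : 2 ≤ m)
    (h : ∀ x : F, x ^ m = x) : Nat.card F ≤ m := by
  obtain ⟨g, hg⟩ := IsCyclic.exists_generator (α := Fˣ)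
  have h1 : g ^ (m - 1) = 1 := by
    apply Units.ext
    have h2 := h (g : F)
    have h3 : (g : F) ^ (m - 1) * (g : F) = 1 * (g : F) := by
      rw [← pow_succ, Nat.sub_add_cancel (by omega), one_mul, h2]
    simpa using mul_right_cancel₀ g.ne_zero h3
  have h2 : orderOf g = Nat.card Fˣ := orderOf_eq_card_of_forall_mem_zpowers hg
  have h3 : Nat.card Fˣ = Nat.card F - 1 := Nat.card_units F
  have h4 : Nat.card F - 1 ∣ m - 1 := by
    rw [← h3, ← h2]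
    exact orderOf_dvd_of_pow_eq_one h1
  have h5 := Nat.le_of_dvd (by omega) h4
  omega

variable (K L : Type*) [Field K] [NumberField K] [Field L] [NumberField L] [Algebra K L]
  [IsGalois K L]

variable {K L} in
/-- Iterating a Frobenius element at `P`. -/
theorem isArithFrobAt_pow_sub {σ : L ≃ₐ[K] L} {P : Ideal (𝓞 L)} [P.IsPrime]
    (h : IsArithFrobAt (𝓞 K) σ P) (n : ℕ) (x : 𝓞 L) :
    σ ^ n • x - x ^ (Nat.card (𝓞 K ⧸ P.under (𝓞 K))) ^ n ∈ P := by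
  induction n with
  | zero => simp
  | succ n ih =>
    have hst : σ • P = P := h.mem_stabilizer
    have h1 : σ • (σ ^ n • x - x ^ (Nat.card (𝓞 K ⧸ P.under (𝓞 K))) ^ n) ∈ P := by
      have h0 := Ideal.smul_mem_pointwise_smul σ _ P ih
      rwa [hst] at h0
    have h2 := h (x ^ (Nat.card (𝓞 K ⧸ P.under (𝓞 K))) ^ n)
    rw [MulSemiringAction.toAlgHom_apply] at h2
    have h3 := add_mem h1 h2
    rw [smul_sub, sub_add_sub_cancel, ← pow_mul, ← pow_succ, smul_smul, ← pow_succ'] at h3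
    exact h3

variable {K L} in
/-- If the `n`-th power of a Frobenius element at `P` is trivial then `f(P) ≤ n`. -/
theorem inertiaDeg_le_of_pow_eq_one {σ : L ≃ₐ[K] L} {P : Ideal (𝓞 L)} [P.IsPrime] (hP : P ≠ ⊥)
    (h : IsArithFrobAt (𝓞 K) σ P) {n : ℕ} (hn : 0 < n) (hσ : σ ^ n = 1) :
    P.inertiaDeg (𝓞 K) ≤ n := by
  have hPmax : P.IsMaximal := Ideal.IsPrime.isMaximal ‹_› hP
  have h𝔭 : (P.under (𝓞 K)) ≠ ⊥ := by
    intro h0
    exact hP (Ideal.eq_bot_of_comap_eq_bot h0)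
  have h𝔭max : (P.under (𝓞 K)).IsMaximal := Ideal.IsPrime.isMaximal inferInstance h𝔭
  let _ : Field (𝓞 L ⧸ P) := Ideal.Quotient.field P
  have : Finite (𝓞 L ⧸ P) := Ideal.finiteQuotientOfFreeOfNeBot P hP
  have : Finite (𝓞 K ⧸ P.under (𝓞 K)) := Ideal.finiteQuotientOfFreeOfNeBot _ h𝔭
  have : Nontrivial (𝓞 K ⧸ P.under (𝓞 K)) :=
    Ideal.Quotient.nontrivial_iff.mpr h𝔭max.ne_top
  set q := Nat.card (𝓞 K ⧸ P.under (𝓞 K)) with hq
  have hq2 : 2 ≤ q := Finite.one_lt_card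
  have hall : ∀ x : 𝓞 L ⧸ P, x ^ q ^ n = x := by
    intro x
    obtain ⟨x, rfl⟩ := Ideal.Quotient.mk_surjective x
    have := isArithFrobAt_pow_sub h n x
    rw [hσ, one_smul] at this
    rw [← map_pow, eq_comm, Ideal.Quotient.eq]
    exact this
  have hm : 2 ≤ q ^ n := le_trans hq2 (Nat.le_self_pow hn.ne' q)
  have hcard := natCard_le_of_forall_pow_eq hm hall
  have h1 : Nat.card (𝓞 L ⧸ P) = q ^ P.inertiaDeg (𝓞 K) := by
    rw [hq, ← Submodule.cardQuot_apply, ← Submodule.cardQuot_apply,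
      ← Ideal.cardQuot_pow_inertiaDeg (P.under (𝓞 K)) P]
  rw [h1] at hcard
  exact (Nat.pow_le_pow_iff_right (by omega)).mp hcard

variable {K L} in
/-- Unramified everywhere: all inertia groups are trivial. -/
theorem UnramifiedEverywhere.inertia_eq_bot (h : UnramifiedEverywhere K L) (P : Ideal (𝓞 L))
    [P.IsPrime] (hP : P ≠ ⊥) : P.inertia (L ≃ₐ[K] L) = ⊥ := by
  rw [eq_bot_iff]
  intro τ hτ
  rw [Subgroup.mem_bot]
  exact h P ‹_› hP τ hτ

variable {K L} in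
/-- Two Frobenius elements at an unramified prime coincide. -/
theorem isArithFrobAt_unique {σ σ' : L ≃ₐ[K] L} {P : Ideal (𝓞 L)}
    (hI : P.inertia (L ≃ₐ[K] L) = ⊥) (h : IsArithFrobAt (𝓞 K) σ P)
    (h' : IsArithFrobAt (𝓞 K) σ' P) : σ = σ' := by
  have := h.mul_inv_mem_inertia h'
  rw [hI, Subgroup.mem_bot] at this
  exact mul_inv_eq_one.mp this

variable {K L} in
/-- The decomposition group of an unramified prime has order `f`. -/
theorem card_stabilizer_eq_inertiaDeg (P : Ideal (𝓞 L)) [P.IsPrime]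
    (hI : P.inertia (L ≃ₐ[K] L) = ⊥) :
    Nat.card (MulAction.stabilizer (L ≃ₐ[K] L) P) = P.inertiaDeg (𝓞 K) := by
  rw [Ideal.card_stabilizer_eq_card_inertia_mul_finrank (P.under (𝓞 K)) P, hI]
  simp

variable {K L} in
/-- The order of a Frobenius element at an unramified prime is the inertia degree. -/
theorem orderOf_eq_inertiaDeg {σ : L ≃ₐ[K] L} {P : Ideal (𝓞 L)} [P.IsPrime] (hP : P ≠ ⊥)
    (hI : P.inertia (L ≃ₐ[K] L) = ⊥) (h : IsArithFrobAt (𝓞 K) σ P) :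
    orderOf σ = P.inertiaDeg (𝓞 K) := by
  have hmem : σ ∈ MulAction.stabilizer (L ≃ₐ[K] L) P := h.mem_stabilizer
  have h1 : σ ^ P.inertiaDeg (𝓞 K) = 1 := by
    have h2 : (⟨σ, hmem⟩ : MulAction.stabilizer (L ≃ₐ[K] L) P) ^
        Nat.card (MulAction.stabilizer (L ≃ₐ[K] L) P) = 1 := pow_card_eq_one'
    rw [card_stabilizer_eq_inertiaDeg P hI] at h2
    exact congrArg Subtype.val h2
  apply le_antisymm
  · exact Nat.le_of_dvd (Ideal.inertiaDeg_pos P (𝓞 K)) (orderOf_dvd_of_pow_eq_one h1)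
  · exact inertiaDeg_le_of_pow_eq_one hP h (orderOf_pos σ) (pow_orderOf_eq_one σ)

end Order

section Abelian

variable (K L : Type*) [Field K] [NumberField K] [Field L] [NumberField L] [Algebra K L]
  [IsAbelianGalois K L]

open scoped IsMulCommutative in
/-- In an abelian extension `frobAt K L 𝔭` is a Frobenius element at EVERY prime above `𝔭`. -/
theorem isArithFrobAt_frobAt (P : Ideal (𝓞 L)) [P.IsPrime] (hP : P ≠ ⊥) :
    IsArithFrobAt (𝓞 K) (frobAt K L (P.under (𝓞 K))) P := by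
  obtain ⟨P₀, hP₀, -, hP₀u, hF⟩ := frobAt_spec K L ⟨P, ‹_›, hP, rfl⟩
  obtain ⟨τ, hτ⟩ :=
    Algebra.IsInvariant.exists_smul_of_under_eq (𝓞 K) (𝓞 L) (L ≃ₐ[K] L) P₀ P hP₀u
  have h := hF.conj τ
  rw [← hτ] at h
  have e : τ * frobAt K L (P.under (𝓞 K)) * τ⁻¹ = frobAt K L (P.under (𝓞 K)) := by
    rw [mul_comm τ, mul_inv_cancel_right]
  rwa [e] at h

/-- Variant of `isArithFrobAt_frobAt` with the prime of `K` given. -/
theorem isArithFrobAt_frobAt' {𝔭 : Ideal (𝓞 K)} (P : Ideal (𝓞 L)) [P.IsPrime] (hP : P ≠ ⊥)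
    (h : P.under (𝓞 K) = 𝔭) : IsArithFrobAt (𝓞 K) (frobAt K L 𝔭) P :=
  h ▸ isArithFrobAt_frobAt K L P hP

variable {K L} in
/-- In the abelian unramified case `frobAt` is THE Frobenius element at any prime above. -/
theorem frobAt_eq_of_isArithFrobAt {σ : L ≃ₐ[K] L} {P : Ideal (𝓞 L)} [P.IsPrime] (hP : P ≠ ⊥)
    (hI : P.inertia (L ≃ₐ[K] L) = ⊥) (h : IsArithFrobAt (𝓞 K) σ P) :
    frobAt K L (P.under (𝓞 K)) = σ :=
  isArithFrobAt_unique hI (isArithFrobAt_frobAt K L P hP) h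

variable {K L} in
/-- The order of `frobAt` at an unramified prime is the inertia degree. -/
theorem orderOf_frobAt (P : Ideal (𝓞 L)) [P.IsPrime] (hP : P ≠ ⊥)
    (hI : P.inertia (L ≃ₐ[K] L) = ⊥) :
    orderOf (frobAt K L (P.under (𝓞 K))) = P.inertiaDeg (𝓞 K) :=
  orderOf_eq_inertiaDeg hP hI (isArithFrobAt_frobAt K L P hP)

variable {K L} in
/-- `frobAt` is trivial at an unramified prime iff the inertia degree is `1`. -/
theorem frobAt_eq_one_iff (P : Ideal (𝓞 L)) [P.IsPrime] (hP : P ≠ ⊥)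
    (hI : P.inertia (L ≃ₐ[K] L) = ⊥) :
    frobAt K L (P.under (𝓞 K)) = 1 ↔ P.inertiaDeg (𝓞 K) = 1 := by
  rw [← orderOf_frobAt P hP hI, orderOf_eq_one_iff]

variable {K L} in
theorem frobAt_pow_inertiaDeg (P : Ideal (𝓞 L)) [P.IsPrime] (hP : P ≠ ⊥)
    (hI : P.inertia (L ≃ₐ[K] L) = ⊥) :
    frobAt K L (P.under (𝓞 K)) ^ P.inertiaDeg (𝓞 K) = 1 := by
  rw [← orderOf_frobAt P hP hI]
  exact pow_orderOf_eq_one _

/-- The Artin map at a nonzero prime is `frobAt`. -/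
theorem artinMap_prime {𝔭 : Ideal (𝓞 K)} [𝔭.IsPrime] (h𝔭 : 𝔭 ≠ ⊥) :
    artinMap K L ⟨𝔭, mem_nonZeroDivisors_of_ne_zero h𝔭⟩ = frobAt K L 𝔭 := by
  have hirr : Irreducible 𝔭 := (Ideal.prime_of_isPrime h𝔭 inferInstance).irreducible
  simp only [artinMap, MonoidHom.coe_mk, OneHom.coe_mk,
    UniqueFactorizationMonoid.normalizedFactors_irreducible hirr, normalize_eq,
    Multiset.map_singleton, Multiset.prod_singleton]

variable {K L} in
/-- The Artin map kills the relative norm of a nonzero prime (unramified at that prime). -/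
theorem artinMap_relNorm0_prime (P : Ideal (𝓞 L)) [P.IsPrime] (hP : P ≠ ⊥)
    (hI : P.inertia (L ≃ₐ[K] L) = ⊥) :
    artinMap K L (relNorm0 K L ⟨P, mem_nonZeroDivisors_of_ne_zero hP⟩) = 1 := by
  have hPmax : P.IsMaximal := Ideal.IsPrime.isMaximal ‹_› hP
  have h𝔭 : (P.under (𝓞 K)) ≠ ⊥ := fun h0 => hP (Ideal.eq_bot_of_comap_eq_bot h0)
  have h𝔭max : (P.under (𝓞 K)).IsMaximal := Ideal.IsPrime.isMaximal inferInstance h𝔭
  have e : relNorm0 K L ⟨P, mem_nonZeroDivisors_of_ne_zero hP⟩ =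
      (⟨P.under (𝓞 K), mem_nonZeroDivisors_of_ne_zero h𝔭⟩ : (Ideal (𝓞 K))⁰) ^
        P.inertiaDeg (𝓞 K) := by
    apply Subtype.ext
    rw [coe_relNorm0, SubmonoidClass.coe_pow]
    exact Ideal.relNorm_eq_pow_of_isMaximal P (P.under (𝓞 K))
  rw [e, map_pow, artinMap_prime K L h𝔭]
  exact frobAt_pow_inertiaDeg P hP hI

/-- **The Artin map kills relative norms** (unramified everywhere).  (AR-e) -/
theorem artinMap_relNorm0 (h : UnramifiedEverywhere K L) (I : (Ideal (𝓞 L))⁰) :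
    artinMap K L (relNorm0 K L I) = 1 := by
  obtain ⟨I, hI⟩ := I
  have hI0 : I ≠ 0 := nonZeroDivisors.ne_zero hI
  revert hI
  induction I using UniqueFactorizationMonoid.induction_on_prime with
  | h₁ => exact absurd rfl hI0
  | h₂ x hx =>
    intro hI
    have : (⟨x, hI⟩ : (Ideal (𝓞 L))⁰) = 1 :=
      Subtype.ext ((Ideal.isUnit_iff.mp hx).trans Ideal.one_eq_top.symm)
    rw [this, map_one, map_one]
  | h₃ a p ha hp ih =>
    intro hI
    have hp0 : p ≠ ⊥ := hp.ne_zero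
    have hpP : p.IsPrime := Ideal.isPrime_of_prime hp
    have e : (⟨p * a, hI⟩ : (Ideal (𝓞 L))⁰) =
        ⟨p, mem_nonZeroDivisors_of_ne_zero hp0⟩ * ⟨a, mem_nonZeroDivisors_of_ne_zero ha⟩ := rfl
    rw [e, map_mul, map_mul, ih ha, mul_one]
    exact artinMap_relNorm0_prime p hp0 (h.inertia_eq_bot p hp0)

end Abelian

section NormClasses

variable (K L : Type*) [Field K] [NumberField K] [Field L] [NumberField L] [Algebra K L]

variable {K L} in
theorem mk0_relNorm0_mem_normClasses (I : (Ideal (𝓞 L))⁰) :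
    ClassGroup.mk0 (relNorm0 K L I) ∈ normClasses K L :=
  Subgroup.subset_closure ⟨I, rfl⟩

variable {K L} in
/-- For a prime `P` of `L` above `𝔭`: `[𝔭] ^ f(P|𝔭) ∈ N Cl(L)`. -/
theorem mk0_pow_inertiaDeg_mem_normClasses (P : Ideal (𝓞 L)) [P.IsPrime] (hP : P ≠ ⊥)
    (h𝔭 : P.under (𝓞 K) ≠ ⊥) :
    ClassGroup.mk0 ⟨P.under (𝓞 K), mem_nonZeroDivisors_of_ne_zero h𝔭⟩ ^ P.inertiaDeg (𝓞 K) ∈
      normClasses K L := by
  have hPmax : P.IsMaximal := Ideal.IsPrime.isMaximal ‹_› hP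
  have h𝔭max : (P.under (𝓞 K)).IsMaximal := Ideal.IsPrime.isMaximal inferInstance h𝔭
  have e : relNorm0 K L ⟨P, mem_nonZeroDivisors_of_ne_zero hP⟩ =
      (⟨P.under (𝓞 K), mem_nonZeroDivisors_of_ne_zero h𝔭⟩ : (Ideal (𝓞 K))⁰) ^
        P.inertiaDeg (𝓞 K) := by
    apply Subtype.ext
    rw [coe_relNorm0, SubmonoidClass.coe_pow]
    exact Ideal.relNorm_eq_pow_of_isMaximal P (P.under (𝓞 K))
  rw [← map_pow, ← e]
  exact mk0_relNorm0_mem_normClasses _

variable {K L} in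
/-- A prime of `K` with a degree-one prime above it is a norm. -/
theorem mk0_mem_normClasses_of_inertiaDeg_eq_one (P : Ideal (𝓞 L)) [P.IsPrime] (hP : P ≠ ⊥)
    (h𝔭 : P.under (𝓞 K) ≠ ⊥) (hf : P.inertiaDeg (𝓞 K) = 1) :
    ClassGroup.mk0 ⟨P.under (𝓞 K), mem_nonZeroDivisors_of_ne_zero h𝔭⟩ ∈ normClasses K L := by
  have := mk0_pow_inertiaDeg_mem_normClasses P hP h𝔭
  rwa [hf, pow_one] at this

/-- `Cl(K) / N Cl(L)` is killed by `[L : K]`. -/
theorem pow_finrank_mem_normClasses (c : ClassGroup (𝓞 K)) :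
    c ^ Module.finrank K L ∈ normClasses K L := by
  obtain ⟨I, rfl⟩ := ClassGroup.mk0_surjective c
  have hI0 : (I : Ideal (𝓞 K)) ≠ ⊥ := nonZeroDivisors.ne_zero I.2
  have hmap : (I : Ideal (𝓞 K)).map (algebraMap (𝓞 K) (𝓞 L)) ≠ ⊥ := by
    rw [Ne, Ideal.map_eq_bot_iff_of_injective (FaithfulSMul.algebraMap_injective (𝓞 K) (𝓞 L))]
    exact hI0
  have e : relNorm0 K L ⟨_, mem_nonZeroDivisors_of_ne_zero hmap⟩ = I ^ Module.finrank K L := by
    apply Subtype.ext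
    rw [coe_relNorm0, SubmonoidClass.coe_pow, Ideal.relNorm_algebraMap,
      IsFractionRing.finrank_eq (𝓞 K) K (𝓞 L) L]
  rw [← map_pow, ← e]
  exact mk0_relNorm0_mem_normClasses _

end NormClasses

section Split

variable (K L : Type*) [Field K] [NumberField K] [Field L] [NumberField L] [Algebra K L]
  [IsAbelianGalois K L]

variable {K L} in
/-- A prime whose class is not a norm class has nontrivial Frobenius (unramified case). -/
theorem frobAt_ne_one_of_mk0_notMem (P : Ideal (𝓞 L)) [P.IsPrime] (hP : P ≠ ⊥)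
    (hI : P.inertia (L ≃ₐ[K] L) = ⊥) (h𝔭 : P.under (𝓞 K) ≠ ⊥)
    (hc : ClassGroup.mk0 ⟨P.under (𝓞 K), mem_nonZeroDivisors_of_ne_zero h𝔭⟩ ∉ normClasses K L) :
    frobAt K L (P.under (𝓞 K)) ≠ 1 := by
  intro h1
  exact hc (mk0_mem_normClasses_of_inertiaDeg_eq_one P hP h𝔭 ((frobAt_eq_one_iff P hP hI).mp h1))

variable {K L} in
/-- Version with the prime of `K` given: a nonzero prime `𝔭` of `K` whose class is not a norm
class has nontrivial Frobenius (`L/K` abelian, unramified everywhere). -/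
theorem frobAt_ne_one_of_mk0_notMem' (h : UnramifiedEverywhere K L) {𝔭 : Ideal (𝓞 K)} [𝔭.IsPrime]
    (h𝔭 : 𝔭 ≠ ⊥)
    (hc : ClassGroup.mk0 ⟨𝔭, mem_nonZeroDivisors_of_ne_zero h𝔭⟩ ∉ normClasses K L) :
    frobAt K L 𝔭 ≠ 1 := by
  obtain ⟨P, hPp, hP0, rfl⟩ := exists_prime_over K L h𝔭
  exact frobAt_ne_one_of_mk0_notMem P hP0 (h.inertia_eq_bot P hP0) h𝔭 hc

variable {K L} in
/-- Trivial inertia group ⟹ ramification index one. -/
theorem ramificationIdx_eq_one_of_inertia_eq_bot (P : Ideal (𝓞 L)) [P.IsPrime] (hP : P ≠ ⊥)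
    (hI : P.inertia (L ≃ₐ[K] L) = ⊥) : P.ramificationIdx (𝓞 K) = 1 := by
  have h𝔭 : (P.under (𝓞 K)) ≠ ⊥ := fun h0 => hP (Ideal.eq_bot_of_comap_eq_bot h0)
  rw [← Ideal.ramificationIdxIn_eq_ramificationIdx (P.under (𝓞 K)) P (L ≃ₐ[K] L),
    ← Ideal.card_inertia_eq_ramificationIdxIn (G := L ≃ₐ[K] L) (P.under (𝓞 K)) P, hI]
  simp

variable {K L} in
/-- Ramification index one ⟹ trivial inertia group. -/
theorem inertia_eq_bot_of_ramificationIdx_eq_one (P : Ideal (𝓞 L)) [P.IsPrime] (hP : P ≠ ⊥)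
    (he : P.ramificationIdx (𝓞 K) = 1) : P.inertia (L ≃ₐ[K] L) = ⊥ := by
  have h𝔭 : (P.under (𝓞 K)) ≠ ⊥ := fun h0 => hP (Ideal.eq_bot_of_comap_eq_bot h0)
  rw [← Ideal.ramificationIdxIn_eq_ramificationIdx (P.under (𝓞 K)) P (L ≃ₐ[K] L),
    ← Ideal.card_inertia_eq_ramificationIdxIn (G := L ≃ₐ[K] L) (P.under (𝓞 K)) P] at he
  exact (Subgroup.card_eq_one).mp he

variable {K L} in
/-- A prime above which some prime is not of type `e = f = 1` has nontrivial Frobenius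
(`L/K` abelian, unramified everywhere).  This is the shape produced by package NS. -/
theorem frobAt_ne_one_of_not_split (h : UnramifiedEverywhere K L) {𝔭 : Ideal (𝓞 K)} [𝔭.IsPrime]
    (h𝔭 : 𝔭 ≠ ⊥)
    (hns : ∀ P : Ideal (𝓞 L), P.IsPrime → P.under (𝓞 K) = 𝔭 →
      ¬ (P.ramificationIdx (𝓞 K) = 1 ∧ P.inertiaDeg (𝓞 K) = 1)) :
    frobAt K L 𝔭 ≠ 1 := by
  obtain ⟨P, hPp, hP0, rfl⟩ := exists_prime_over K L h𝔭
  intro h1
  have hI := h.inertia_eq_bot P hP0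
  exact hns P hPp rfl ⟨ramificationIdx_eq_one_of_inertia_eq_bot P hP0 hI,
    (frobAt_eq_one_iff P hP0 hI).mp h1⟩

variable {K L} in
/-- Conversely: trivial Frobenius ⟹ every prime above is of type `e = f = 1`. -/
theorem split_of_frobAt_eq_one (h : UnramifiedEverywhere K L) (P : Ideal (𝓞 L)) [P.IsPrime]
    (hP : P ≠ ⊥) (h1 : frobAt K L (P.under (𝓞 K)) = 1) :
    P.ramificationIdx (𝓞 K) = 1 ∧ P.inertiaDeg (𝓞 K) = 1 :=
  ⟨ramificationIdx_eq_one_of_inertia_eq_bot P hP (h.inertia_eq_bot P hP),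
    (frobAt_eq_one_iff P hP (h.inertia_eq_bot P hP)).mp h1⟩

end Split

/-! ### The interface names used by RC / CAT (board 635, `RC/ArtinIface.lean`) -/

section Iface

variable (K L : Type*) [Field K] [NumberField K] [Field L] [NumberField L] [Algebra K L]

/-- (AR-a) in an abelian unramified extension `frobAt` is a Frobenius at EVERY prime above. -/
theorem frobAt_isArithFrobAt [IsAbelianGalois K L] (_hunr : UnramifiedEverywhere K L)
    (P : Ideal (𝓞 L)) [P.IsPrime] (hP : P ≠ ⊥) :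
    IsArithFrobAt (𝓞 K) (frobAt K L (P.under (𝓞 K))) P :=
  isArithFrobAt_frobAt K L P hP

/-- (AR-b) uniqueness of the Frobenius at an unramified prime. -/
theorem eq_frobAt_of_isArithFrobAt [IsAbelianGalois K L] (hunr : UnramifiedEverywhere K L)
    (P : Ideal (𝓞 L)) [P.IsPrime] (hP : P ≠ ⊥) (τ : L ≃ₐ[K] L)
    (hτ : IsArithFrobAt (𝓞 K) τ P) : τ = frobAt K L (P.under (𝓞 K)) :=
  (frobAt_eq_of_isArithFrobAt hP (hunr.inertia_eq_bot P hP) hτ).symm

/-- (AR-c) the Artin map on a prime. -/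
theorem artinMap_mk_prime [IsAbelianGalois K L] (𝔭 : Ideal (𝓞 K)) [𝔭.IsPrime] (h𝔭 : 𝔭 ≠ ⊥) :
    artinMap K L ⟨𝔭, mem_nonZeroDivisors_of_ne_zero h𝔭⟩ = frobAt K L 𝔭 :=
  artinMap_prime K L h𝔭

/-- (AR-d) a prime with trivial Frobenius (unramified: it splits completely) is a norm. -/
theorem mk0_mem_normClasses_of_frobAt_eq_one [IsAbelianGalois K L]
    (hunr : UnramifiedEverywhere K L) (𝔭 : Ideal (𝓞 K)) [𝔭.IsPrime] (h𝔭 : 𝔭 ≠ ⊥)
    (h1 : frobAt K L 𝔭 = 1) :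
    ClassGroup.mk0 ⟨𝔭, mem_nonZeroDivisors_of_ne_zero h𝔭⟩ ∈ normClasses K L := by
  by_contra hc
  exact frobAt_ne_one_of_mk0_notMem' hunr h𝔭 hc h1

end Iface

end Fermat.Agent.S14
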