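/-
T14 package CR, sub-lemma CYC1 (helper19): a Frobenius element acts on the roots of unity of
order prime to the residue characteristic by raising to the absolute norm.

Thin wrappers over Mathlib's `AlgHom.IsArithFrobAt.apply_of_pow_eq_one`, in the shapes of
`Fermat.Agent.S14.frobAt` / `Fermat.Agent.S14.artinMap`.
-/
import Fermat.Agent.S14.Defs

set_option autoImplicit false

open NumberField nonZeroDivisors

namespace Fermat.Agent.S14.CRCyc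

variable {K L : Type*} [Field K] [NumberField K] [Field L] [NumberField L] [Algebra K L]

/-- `Nat.card (𝓞 K ⧸ 𝔭)` is the absolute norm. -/
lemma natCard_quot_eq_absNorm (𝔭 : Ideal (𝓞 K)) : Nat.card (𝓞 K ⧸ 𝔭) = Ideal.absNorm 𝔭 := by
  rw [Ideal.absNorm_apply, Submodule.cardQuot_apply]

/-- CYC1, integral version: any Frobenius element at `P` sends an `m`-th root of unity `ζ ∈ 𝓞 L`
(`m ∉ P`) to `ζ ^ N(P ∩ 𝓞 K)`. -/
theorem isArithFrobAt_smul_zeta [IsGalois K L] {σ : L ≃ₐ[K] L} {P : Ideal (𝓞 L)}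
    (hσ : IsArithFrobAt (𝓞 K) σ P) {ζ : 𝓞 L} {m : ℕ} (hζ : ζ ^ m = 1) (hm : (m : 𝓞 L) ∉ P) :
    σ • ζ = ζ ^ Ideal.absNorm (P.under (𝓞 K)) := by
  have := AlgHom.IsArithFrobAt.apply_of_pow_eq_one hσ hζ hm
  rw [natCard_quot_eq_absNorm] at this
  exact this

omit [NumberField L] in
/-- A root of unity of a number field, as an element of the ring of integers. -/
lemma exists_integer_of_pow_eq_one {ζ : L} {m : ℕ} (hm0 : m ≠ 0) (hζ : ζ ^ m = 1) :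
    ∃ ζ' : 𝓞 L, (ζ' : L) = ζ ∧ ζ' ^ m = 1 := by
  have hint : IsIntegral ℤ ζ :=
    ⟨Polynomial.X ^ m - 1, Polynomial.monic_X_pow_sub_C 1 hm0, by simp [hζ]⟩
  obtain ⟨ζ', rfl⟩ := (IsIntegralClosure.isIntegral_iff (A := 𝓞 L)).1 hint
  refine ⟨ζ', rfl, ?_⟩
  apply RingOfIntegers.coe_injective
  rw [map_pow, map_one]
  exact hζ

/-- CYC1, field version. -/
theorem isArithFrobAt_apply_zeta [IsGalois K L] {σ : L ≃ₐ[K] L} {P : Ideal (𝓞 L)}
    (hσ : IsArithFrobAt (𝓞 K) σ P) {ζ : L} {m : ℕ} (hζ : ζ ^ m = 1) (hm : (m : 𝓞 L) ∉ P) :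
    σ ζ = ζ ^ Ideal.absNorm (P.under (𝓞 K)) := by
  have hm0 : m ≠ 0 := by rintro rfl; exact hm (by simp)
  obtain ⟨ζ', rfl, h1⟩ := exists_integer_of_pow_eq_one hm0 hζ
  have h2 := isArithFrobAt_smul_zeta hσ h1 hm
  have h3 : ((σ • ζ' : 𝓞 L) : L) = σ (ζ' : L) := rfl
  rw [← h3, h2]
  simp

omit [NumberField K] [NumberField L] in
/-- A natural number lies in a prime of `𝓞 L` iff it lies in the prime of `𝓞 K` below it. -/
lemma natCast_mem_under_iff (P : Ideal (𝓞 L)) (m : ℕ) :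
    (m : 𝓞 K) ∈ P.under (𝓞 K) ↔ (m : 𝓞 L) ∈ P := by
  rw [Ideal.under_def, Ideal.mem_comap, map_natCast]

/-- CYC1 for the chosen Frobenius `frobAt K L 𝔭` of the T14 definitions: for a nonzero prime `𝔭`
of `K` not containing `m`, `frobAt K L 𝔭 ζ = ζ ^ N𝔭` for every `m`-th root of unity `ζ` of `L`.
(No hypothesis on ramification: every Frobenius element acts this way.) -/
theorem frobAt_apply_zeta [IsGalois K L] (𝔭 : Ideal (𝓞 K)) [h𝔭 : 𝔭.IsPrime] (h0 : 𝔭 ≠ ⊥)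
    {ζ : L} {m : ℕ} (hζ : ζ ^ m = 1) (hm : (m : 𝓞 K) ∉ 𝔭) :
    frobAt K L 𝔭 ζ = ζ ^ Ideal.absNorm 𝔭 := by
  classical
  have hex : ∃ P : Ideal (𝓞 L), P.IsPrime ∧ P ≠ ⊥ ∧ P.under (𝓞 K) = 𝔭 := by
    obtain ⟨P, hP, hPp⟩ := Ideal.exists_ideal_over_prime_of_isIntegral 𝔭 (⊥ : Ideal (𝓞 L))
      (by simp)
    refine ⟨P, hPp.1, ?_, hPp.2⟩
    rintro rfl
    apply h0
    rw [← hPp.2]
    exact Ideal.under_bot (𝓞 K) (𝓞 L)
  have hspec := hex.choose_spec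
  have : hex.choose.IsPrime := hspec.1
  have : Finite (𝓞 L ⧸ hex.choose) := Ideal.finiteQuotientOfFreeOfNeBot _ hspec.2.1
  have hfrob : frobAt K L 𝔭 = arithFrobAt (𝓞 K) (L ≃ₐ[K] L) hex.choose := by
    unfold frobAt
    rw [dif_pos hex]
  have hF : IsArithFrobAt (𝓞 K) (arithFrobAt (𝓞 K) (L ≃ₐ[K] L) hex.choose) hex.choose :=
    IsArithFrobAt.arithFrobAt (𝓞 K) (L ≃ₐ[K] L) hex.choose
  have hmP : (m : 𝓞 L) ∉ hex.choose := by
    rw [← natCast_mem_under_iff (K := K), hspec.2.2]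
    exact hm
  rw [hfrob, isArithFrobAt_apply_zeta hF hζ hmP, hspec.2.2]

open scoped IsMulCommutative in
/-- A product of chosen Frobenius elements at nonzero primes not containing `m` acts on the
`m`-th roots of unity by raising to the product of the norms. -/
theorem multiset_prod_frobAt_apply_zeta [IsAbelianGalois K L] (s : Multiset (Ideal (𝓞 K)))
    {ζ : L} {m : ℕ} (hζ : ζ ^ m = 1)
    (hs : ∀ 𝔭 ∈ s, 𝔭.IsPrime ∧ 𝔭 ≠ ⊥ ∧ (m : 𝓞 K) ∉ 𝔭) :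
    (s.map (frobAt K L)).prod ζ = ζ ^ (s.map Ideal.absNorm).prod := by
  induction s using Multiset.induction_on with
  | empty => simp
  | cons 𝔭 s ih =>
    have h𝔭 := hs 𝔭 (Multiset.mem_cons_self 𝔭 s)
    have : 𝔭.IsPrime := h𝔭.1
    rw [Multiset.map_cons, Multiset.prod_cons, Multiset.map_cons, Multiset.prod_cons,
      AlgEquiv.mul_apply, ih (fun 𝔮 h𝔮 => hs 𝔮 (Multiset.mem_cons_of_mem h𝔮)), map_pow,
      frobAt_apply_zeta 𝔭 h𝔭.2.1 hζ h𝔭.2.2, ← pow_mul]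

open scoped IsMulCommutative in
/-- CYC1 for the T14 Artin map: if no prime factor of `I` contains `m`, then
`artinMap K L I ζ = ζ ^ N(I)` for every `m`-th root of unity `ζ` of `L`. -/
theorem artinMap_apply_zeta [IsAbelianGalois K L] (I : (Ideal (𝓞 K))⁰) {ζ : L} {m : ℕ}
    (hζ : ζ ^ m = 1)
    (hI : ∀ 𝔭 ∈ UniqueFactorizationMonoid.normalizedFactors (I : Ideal (𝓞 K)), (m : 𝓞 K) ∉ 𝔭) :
    artinMap K L I ζ = ζ ^ Ideal.absNorm (I : Ideal (𝓞 K)) := by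
  have hI0 : (I : Ideal (𝓞 K)) ≠ ⊥ := by
    rw [← Ideal.zero_eq_bot]; exact nonZeroDivisors.ne_zero I.2
  have h1 : artinMap K L I =
      ((UniqueFactorizationMonoid.normalizedFactors (I : Ideal (𝓞 K))).map (frobAt K L)).prod :=
    rfl
  rw [h1, multiset_prod_frobAt_apply_zeta _ hζ (fun 𝔭 h𝔭 => ⟨?_, ?_, hI 𝔭 h𝔭⟩)]
  · congr 1
    conv_rhs => rw [← Ideal.prod_normalizedFactors_eq_self hI0]
    rw [map_multiset_prod]
  · exact Ideal.isPrime_of_prime (UniqueFactorizationMonoid.prime_of_normalized_factor 𝔭 h𝔭)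
  · exact (UniqueFactorizationMonoid.prime_of_normalized_factor 𝔭 h𝔭).ne_zero

/-- Variant with the coprimality hypothesis `I ⊔ (m) = ⊤`. -/
theorem artinMap_apply_zeta_of_sup_eq_top [IsAbelianGalois K L] (I : (Ideal (𝓞 K))⁰) {ζ : L}
    {m : ℕ} (hζ : ζ ^ m = 1) (hI : (I : Ideal (𝓞 K)) ⊔ Ideal.span {(m : 𝓞 K)} = ⊤) :
    artinMap K L I ζ = ζ ^ Ideal.absNorm (I : Ideal (𝓞 K)) := by
  refine artinMap_apply_zeta I hζ (fun 𝔭 h𝔭 hm => ?_)
  have hp : 𝔭.IsPrime :=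
    Ideal.isPrime_of_prime (UniqueFactorizationMonoid.prime_of_normalized_factor 𝔭 h𝔭)
  have hle : (I : Ideal (𝓞 K)) ≤ 𝔭 :=
    Ideal.le_of_dvd (UniqueFactorizationMonoid.dvd_of_mem_normalizedFactors h𝔭)
  apply hp.ne_top
  rw [eq_top_iff, ← hI]
  exact sup_le hle ((Ideal.span_singleton_le_iff_mem _).2 hm)

open scoped IsMulCommutative in
/-- CYC1 for principal ideals: `Art((x)) ζ = ζ ^ |N_{K/ℚ} x|` for `x` prime to `m`. -/
theorem artinMap_span_singleton_apply_zeta [IsAbelianGalois K L] (x : 𝓞 K)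
    (hx : Ideal.span {x} ∈ (Ideal (𝓞 K))⁰) {ζ : L} {m : ℕ} (hζ : ζ ^ m = 1)
    (hxm : Ideal.span {x} ⊔ Ideal.span {(m : 𝓞 K)} = ⊤) :
    artinMap K L ⟨Ideal.span {x}, hx⟩ ζ = ζ ^ (Algebra.norm ℤ x).natAbs := by
  rw [artinMap_apply_zeta_of_sup_eq_top ⟨Ideal.span {x}, hx⟩ hζ hxm,
    Ideal.absNorm_span_singleton]

omit [NumberField L] in
/-- If `ζ ^ m = 1` and the integer `N` is a `p`-th power mod `m` (`p` odd), then
`ζ ^ |N| = ζ ^ (k ^ p)` for some natural number `k`. -/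
theorem exists_pow_eq_of_isPow_mod {ζ : L} {m p : ℕ} [NeZero m] (hp : Odd p) (hζ : ζ ^ m = 1)
    (N : ℤ) (y : ZMod m) (hN : (N : ZMod m) = y ^ p) :
    ∃ k : ℕ, ζ ^ N.natAbs = ζ ^ (k ^ p) := by
  obtain ⟨z, hz⟩ : ∃ z : ZMod m, ((N.natAbs : ℕ) : ZMod m) = z ^ p := by
    rcases Int.natAbs_eq N with h | h
    · refine ⟨y, ?_⟩
      rw [← hN]
      conv_rhs => rw [h]
      simp
    · refine ⟨-y, ?_⟩
      rw [hp.neg_pow, ← hN]
      conv_rhs => rw [h]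
      simp
  refine ⟨z.val, ?_⟩
  apply pow_eq_pow_of_modEq _ hζ
  rw [← ZMod.natCast_eq_natCast_iff, hz]
  simp

end Fermat.Agent.S14.CRCyc
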