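/-
T14 package HQ: Herbrand quotient of a finitely generated abelian group with an automorphism of
prime order `p`, computed from ranks.  Pure algebra, Mathlib only.

Math.  `A` f.g. abelian, `σ^p = 1`, `N = 1 + σ + ... + σ^(p-1)`, `D = σ - 1`.
`H^0 = ker D / im N`, `H^1 = ker N / im D`.  Then both are finite and
`|H^1| * p^a = |H^0| * p^((n-a)/(p-1))` where `n = rank A`, `a = rank A^σ`.
Proof sketch: (1) torsion subgroup is finite, finite modules have `|H^0| = |H^1|`, and the Herbrand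
quotient is multiplicative in short exact sequences (only needed for the two sequences
`0 → T → A → A/T → 0` and `0 → B → A → C → 0` below; it may be proved by hand).  So assume `A`
torsion free.  (2) `B := A^σ = ker D` (free of rank `a`, trivial action: `H^0 = B/pB` of order `p^a`,
`H^1 = 0`).  (3) `C := A/B` is torsion free, `N` acts as `0` on `C`, `C^σ = 0`; hence `H^0(C) = 0`
and `H^1(C) = C/(σ-1)C`.  In `ℤ[σ]/(N)`: `p = (1-σ)^(p-1) * unit`, so `(σ-1)^(p-1) C = p C`; the
successive quotients of `C ⊇ (σ-1)C ⊇ ... ⊇ (σ-1)^(p-1)C = pC` are all isomorphic (σ-1 injective),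
so `|C/(σ-1)C|^(p-1) = |C/pC| = p^(n-a)`.
-/
import Mathlib

set_option autoImplicit false

namespace Fermat.Agent.S14.HQ

open Polynomial Finset

/-- (P1) `∏_{1 ≤ k < p} (1 - X^k) ≡ p` modulo `Φ_p = ∑_{i<p} X^i`. -/
theorem geomSum_dvd_prod_sub {p : ℕ} (hp : p.Prime) :
    (∑ i ∈ range p, (X : ℤ[X]) ^ i) ∣
      ∏ k ∈ range (p - 1), (1 - (X : ℤ[X]) ^ (k + 1)) - C (p : ℤ) := by
  have : Fact p.Prime := ⟨hp⟩
  set ζ : ℂ := Complex.exp (2 * Real.pi * Complex.I / p) with hζdef
  have hζ : IsPrimitiveRoot ζ p := Complex.isPrimitiveRoot_exp p hp.ne_zero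
  have hp1 : p - 1 + 1 = p := Nat.sub_add_cancel hp.one_le
  have hζ' : IsPrimitiveRoot ζ (p - 1 + 1) := by rwa [hp1]
  have h1 : aeval ζ (∏ k ∈ range (p - 1), (1 - (X : ℤ[X]) ^ (k + 1)) - C (p : ℤ)) = 0 := by
    have := hζ'.prod_one_sub_pow_eq_order
    simp only [map_sub, map_prod, map_one, map_pow, aeval_X, aeval_C, this]
    have : ((p - 1 : ℕ) : ℂ) + 1 = (p : ℂ) := by
      rw [← Nat.cast_one (R := ℂ), ← Nat.cast_add, hp1]
    simp [this]
  have := minpoly.isIntegrallyClosed_dvd (hζ.isIntegral hp.pos) h1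
  rwa [← cyclotomic_eq_minpoly hζ hp.pos, cyclotomic_prime] at this

/-- (P2) for `k` prime to `p`, `1 - X` is a multiple of `1 - X^k` modulo `Φ_p`. -/
theorem exists_mul_sub_dvd {p : ℕ} (hp : p.Prime) {k : ℕ} (hk : Nat.Coprime k p) :
    ∃ e : ℤ[X], (∑ i ∈ range p, (X : ℤ[X]) ^ i) ∣ (1 - (X : ℤ[X]) ^ k) * e - (1 - X) := by
  obtain ⟨m, -, hm⟩ := Nat.exists_mul_mod_eq_one_of_coprime hk hp.one_lt
  set t := k * m / p with ht
  have hkm : k * m = p * t + 1 := by
    have := Nat.div_add_mod (k * m) p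
    rw [hm] at this
    exact this.symm
  refine ⟨∑ j ∈ range m, ((X : ℤ[X]) ^ k) ^ j, ?_⟩
  have e1 : (1 - (X : ℤ[X]) ^ k) * ∑ j ∈ range m, ((X : ℤ[X]) ^ k) ^ j = 1 - X ^ (k * m) := by
    rw [mul_neg_geom_sum, pow_mul]
  have e2 : (1 - (X : ℤ[X]) ^ p) = (1 - X) * ∑ i ∈ range p, (X : ℤ[X]) ^ i := by
    rw [mul_neg_geom_sum]
  have e3 : (1 - ((X : ℤ[X]) ^ p) ^ t) = (1 - X ^ p) * ∑ j ∈ range t, ((X : ℤ[X]) ^ p) ^ j := by
    rw [mul_neg_geom_sum]
  refine ⟨X * (1 - X) * ∑ j ∈ range t, ((X : ℤ[X]) ^ p) ^ j, ?_⟩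
  rw [e1, hkm, pow_succ, pow_mul]
  have : (1 - ((X : ℤ[X]) ^ p) ^ t * X - (1 - X)) = X * (1 - ((X : ℤ[X]) ^ p) ^ t) := by ring
  rw [this, e3, e2]
  ring

theorem natAbs_det_pow_eq {M : Type*} [AddCommGroup M] [Module.Free ℤ M] [Module.Finite ℤ M]
    {p : ℕ} (hp : p.Prime) (s : Module.End ℤ M) (hs : ∑ i ∈ range p, s ^ i = 0) :
    (LinearMap.det (s - 1)).natAbs ^ (p - 1) = p ^ Module.finrank ℤ M := by
  classical
  set Φ : ℤ[X] := ∑ i ∈ range p, (X : ℤ[X]) ^ i with hΦdef
  have hΦ : aeval s Φ = 0 := by simp [hΦdef, map_sum, hs]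
  have hcongr : ∀ q q' : ℤ[X], Φ ∣ q - q' → aeval s q = aeval s q' := by
    rintro q q' ⟨w, hw⟩
    have : aeval s (q - q') = 0 := by rw [hw, map_mul, hΦ, zero_mul]
    rwa [map_sub, sub_eq_zero] at this
  -- the multiplicative map `q ↦ det q(s)`
  let φ : ℤ[X] →* ℤ := (LinearMap.det (M := M) (A := ℤ)).comp
    ((aeval s : ℤ[X] →ₐ[ℤ] Module.End ℤ M) : ℤ[X] →* Module.End ℤ M)
  have hφ : ∀ q, φ q = LinearMap.det (aeval s q) := fun _ => rfl
  -- step 1
  have h1 : φ (∏ k ∈ range (p - 1), (1 - (X : ℤ[X]) ^ (k + 1))) = (p : ℤ) ^ Module.finrank ℤ M := by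
    rw [hφ, hcongr _ _ (geomSum_dvd_prod_sub hp), aeval_C, Algebra.algebraMap_eq_smul_one,
      LinearMap.det_smul, map_one, mul_one]
  -- step 2
  have h2 : ∀ k ∈ range (p - 1), (φ (1 - (X : ℤ[X]) ^ (k + 1))).natAbs = (φ (1 - X)).natAbs := by
    intro k hk
    have hkp : k + 1 < p := by have := mem_range.1 hk; omega
    have hcop : Nat.Coprime (k + 1) p :=
      Nat.Coprime.symm ((Nat.Prime.coprime_iff_not_dvd hp).2
        (Nat.not_dvd_of_pos_of_lt (Nat.succ_pos k) hkp))
    obtain ⟨e, he⟩ := exists_mul_sub_dvd hp hcop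
    apply Int.natAbs_eq_of_dvd_dvd
    · -- φ(1 - X^(k+1)) ∣ φ(1 - X)
      have : φ (1 - X) = φ ((1 - (X : ℤ[X]) ^ (k + 1)) * e) := by
        rw [hφ, hφ, hcongr _ _ he]
      rw [this, map_mul]
      exact dvd_mul_right _ _
    · have : (1 - (X : ℤ[X]) ^ (k + 1)) = (1 - X) * ∑ j ∈ range (k + 1), (X : ℤ[X]) ^ j := by
        rw [mul_neg_geom_sum]
      rw [this, map_mul]
      exact dvd_mul_right _ _
  -- step 3
  have h3 : (φ (1 - X)).natAbs = (LinearMap.det (s - 1)).natAbs := by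
    have e1 : aeval s (1 - X : ℤ[X]) = (-1 : Module.End ℤ M) * (s - 1) := by
      simp
    have e2 : (s - 1) = (-1 : Module.End ℤ M) * aeval s (1 - X : ℤ[X]) := by
      simp
    apply Int.natAbs_eq_of_dvd_dvd
    · rw [hφ]
      conv_rhs => rw [e2]
      rw [map_mul]; exact dvd_mul_left _ _
    · rw [hφ, e1, map_mul]; exact dvd_mul_left _ _
  have h4 := congrArg Int.natAbs h1
  rw [map_prod, Int.natAbs_pow, Int.natAbs_natCast] at h4
  rw [← h4, ← h3]
  have : (∏ k ∈ range (p - 1), φ (1 - (X : ℤ[X]) ^ (k + 1))).natAbs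
      = ∏ k ∈ range (p - 1), (φ (1 - (X : ℤ[X]) ^ (k + 1))).natAbs :=
    map_prod Int.natAbsHom _ _
  rw [this, prod_congr rfl h2, prod_const, card_range]

/-- Lang's index lemma: `[A : A'] = [ker f : ker f ∩ A'] * [f A : f A']`. -/
theorem index_eq_relIndex_ker_mul {A B : Type*} [AddCommGroup A] [AddCommGroup B] (f : A →+ B)
    (A' : AddSubgroup A) :
    A'.index = A'.relIndex f.ker * (A'.map f).relIndex f.range := by
  have h1 : A'.relIndex (A' ⊔ f.ker) * (A' ⊔ f.ker).index = A'.index :=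
    AddSubgroup.relIndex_mul_index le_sup_left
  have h2 : A'.relIndex (A' ⊔ f.ker) = A'.relIndex f.ker := AddSubgroup.relIndex_sup_left _ _
  have h3 : (A'.map f).relIndex f.range = (A' ⊔ f.ker).index := by
    rw [AddMonoidHom.range_eq_map, AddSubgroup.relIndex_map_map, top_sup_eq,
      AddSubgroup.relIndex_top_right]
  rw [h3, ← h2, h1]

/-- One half of the finite-index invariance of the Herbrand quotient. -/
theorem relIndex_half {A : Type*} [AddCommGroup A] (f g : A →+ A) (hgf : ∀ x, g (f x) = 0)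
    (A' : AddSubgroup A) (hf : A'.map f ≤ A') :
    (A'.map f).relIndex f.range * f.range.relIndex g.ker =
      (A'.map f).relIndex (g.ker ⊓ A') * A'.relIndex g.ker := by
  have hfg : f.range ≤ g.ker := by
    rintro _ ⟨x, rfl⟩; exact hgf x
  have h1 : A'.map f ≤ f.range := AddSubgroup.map_le_range f A'
  have h2 : A'.map f ≤ g.ker ⊓ A' := le_inf (h1.trans hfg) hf
  rw [AddSubgroup.relIndex_mul_relIndex _ _ _ h1 hfg, ← AddSubgroup.inf_relIndex_left g.ker A',
    AddSubgroup.relIndex_mul_relIndex _ _ _ h2 inf_le_left]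

/-- Finite-index invariance of the Herbrand quotient. -/
theorem herbrand_finiteIndex {A : Type*} [AddCommGroup A] (D N : A →+ A)
    (hDN : ∀ x, D (N x) = 0) (hND : ∀ x, N (D x) = 0) (A' : AddSubgroup A) (hA' : A'.index ≠ 0)
    (hD : A'.map D ≤ A') (hN : A'.map N ≤ A') :
    (N.range.relIndex D.ker ≠ 0 ↔ (A'.map N).relIndex (D.ker ⊓ A') ≠ 0) ∧
    (D.range.relIndex N.ker ≠ 0 ↔ (A'.map D).relIndex (N.ker ⊓ A') ≠ 0) ∧
    N.range.relIndex D.ker * (A'.map D).relIndex (N.ker ⊓ A') =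
      (A'.map N).relIndex (D.ker ⊓ A') * D.range.relIndex N.ker := by
  have iN := index_eq_relIndex_ker_mul N A'
  have iD := index_eq_relIndex_ker_mul D A'
  have eN := relIndex_half N D hDN A' hN
  have eD := relIndex_half D N hND A' hD
  set i := A'.index
  set kN := A'.relIndex N.ker
  set kD := A'.relIndex D.ker
  set rN := (A'.map N).relIndex N.range
  set rD := (A'.map D).relIndex D.range
  set h0 := N.range.relIndex D.ker
  set h1 := D.range.relIndex N.ker
  set h0' := (A'.map N).relIndex (D.ker ⊓ A')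
  set h1' := (A'.map D).relIndex (N.ker ⊓ A')
  have hkN : kN ≠ 0 := fun h => hA' (by rw [iN, h, zero_mul])
  have hrN : rN ≠ 0 := fun h => hA' (by rw [iN, h, mul_zero])
  have hkD : kD ≠ 0 := fun h => hA' (by rw [iD, h, zero_mul])
  have hrD : rD ≠ 0 := fun h => hA' (by rw [iD, h, mul_zero])
  refine ⟨?_, ?_, ?_⟩
  · constructor
    · intro h h'
      have : rN * h0 ≠ 0 := mul_ne_zero hrN h
      rw [eN, h', zero_mul] at this
      exact this rfl
    · intro h h'
      have : h0' * kD ≠ 0 := mul_ne_zero h hkD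
      rw [← eN, h', mul_zero] at this
      exact this rfl
  · constructor
    · intro h h'
      have : rD * h1 ≠ 0 := mul_ne_zero hrD h
      rw [eD, h', zero_mul] at this
      exact this rfl
    · intro h h'
      have : h1' * kN ≠ 0 := mul_ne_zero h hkN
      rw [← eD, h', mul_zero] at this
      exact this rfl
  · apply Nat.eq_of_mul_eq_mul_right (Nat.pos_of_ne_zero hA')
    calc h0 * h1' * i = (rN * h0) * (h1' * kN) := by rw [iN]; ring
      _ = (h0' * kD) * (rD * h1) := by rw [eN, eD]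
      _ = h0' * h1 * i := by rw [iD]; ring

/-- if `x ^ (p - 1) = p ^ r` then `x = p ^ (r / (p - 1))`. -/
theorem eq_pow_div_of_pow_eq {p : ℕ} (hp : p.Prime) {x r : ℕ} (h : x ^ (p - 1) = p ^ r) :
    x = p ^ (r / (p - 1)) := by
  have hp1 : 0 < p - 1 := Nat.sub_pos_of_lt hp.one_lt
  have hx : x ∣ p ^ r := by
    rw [← h]; exact dvd_pow_self x hp1.ne'
  obtain ⟨k, -, rfl⟩ := (Nat.dvd_prime_pow hp).1 hx
  rw [← pow_mul] at h
  have := Nat.pow_right_injective hp.two_le h
  rw [← this, Nat.mul_div_cancel _ hp1]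

theorem index_range_sub_one {M : Type*} [AddCommGroup M] [Module.Free ℤ M] [Module.Finite ℤ M]
    {p : ℕ} (hp : p.Prime) (s : Module.End ℤ M) (hs : ∑ i ∈ range p, s ^ i = 0)
    (hinj : Function.Injective ⇑(s - 1 : Module.End ℤ M)) :
    (LinearMap.range (s - 1)).toAddSubgroup.index = p ^ (Module.finrank ℤ M / (p - 1)) := by
  apply eq_pow_div_of_pow_eq hp
  rw [← natAbs_det_pow_eq hp s hs]
  congr 1
  let e : M ≃ₗ[ℤ] LinearMap.range (s - 1) := LinearEquiv.ofInjective (s - 1) hinj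
  have h := Submodule.natAbs_det_equiv (LinearMap.range (s - 1)) e
  have h2 : (LinearMap.range (s - 1)).subtype ∘ₗ AddMonoidHom.toIntLinearMap
      ((e : M →+ LinearMap.range (s - 1))) = s - 1 := by
    ext x; rfl
  rw [h2] at h
  rw [h]
  rfl

section EndLemmas
variable {A : Type*} [AddCommGroup A]

theorem End_add_apply (f g : AddMonoid.End A) (x : A) : (f + g) x = f x + g x := rfl
theorem End_sub_apply (f g : AddMonoid.End A) (x : A) : (f - g) x = f x - g x := rfl
theorem End_one_apply (x : A) : (1 : AddMonoid.End A) x = x := rfl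
theorem End_mul_apply (f g : AddMonoid.End A) (x : A) : (f * g) x = f (g x) := rfl
theorem End_zero_apply (x : A) : (0 : AddMonoid.End A) x = 0 := rfl

theorem End_sum_apply {ι : Type*} (s : Finset ι) (f : ι → AddMonoid.End A) (x : A) :
    (∑ i ∈ s, f i) x = ∑ i ∈ s, f i x := by
  classical
  induction s using Finset.induction_on with
  | empty => simp
  | insert a s ha ih =>
    rw [Finset.sum_insert ha, Finset.sum_insert ha, ← ih, End_add_apply]

end EndLemmas

theorem relIndex_map_eq_index_range {A M : Type*} [AddCommGroup A] [AddCommGroup M]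
    (ι : M →+ A) (hι : Function.Injective ι) (f : A →+ A) (g : M →+ M)
    (hfg : ∀ x, f (ι x) = ι (g x)) :
    (ι.range.map f).relIndex ι.range = g.range.index := by
  have h1 : ι.range.map f = g.range.map ι := by
    ext y; constructor
    · rintro ⟨_, ⟨x, rfl⟩, rfl⟩; exact ⟨g x, ⟨x, rfl⟩, (hfg x).symm⟩
    · rintro ⟨_, ⟨x, rfl⟩, rfl⟩; exact ⟨ι x, ⟨x, rfl⟩, hfg x⟩
  rw [h1, AddMonoidHom.range_eq_map ι, AddSubgroup.relIndex_map_map_of_injective _ _ hι,
    AddSubgroup.relIndex_top_right]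

theorem relIndex_map_sub_one {A : Type*} [AddCommGroup A] {p : ℕ} (hp : p.Prime)
    (σ : AddMonoid.End A) (S : Submodule ℤ A) [Module.Free ℤ S] [Module.Finite ℤ S]
    (hσS : ∀ x ∈ S, σ x ∈ S) (hN : ∀ x ∈ S, (∑ i ∈ range p, σ ^ i) x = 0)
    (hinj : ∀ x ∈ S, σ x = x → x = 0) :
    (S.toAddSubgroup.map (σ - 1 : AddMonoid.End A)).relIndex S.toAddSubgroup =
      p ^ (Module.finrank ℤ S / (p - 1)) := by
  let σL : A →ₗ[ℤ] A := AddMonoidHom.toIntLinearMap σ
  have hσL : ∀ x ∈ S, σL x ∈ S := hσS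
  let s : Module.End ℤ S := σL.restrict hσL
  have hs1 : ∀ x : S, ((s x : S) : A) = σ x := fun x => rfl
  have hs_pow : ∀ (i : ℕ) (x : S), (((s ^ i) x : S) : A) = (σ ^ i) x := by
    intro i
    induction i with
    | zero => intro x; simp
    | succ i ih =>
      intro x
      rw [pow_succ, pow_succ, Module.End.mul_apply, ih, hs1]
      rfl
  have hs : ∑ i ∈ range p, s ^ i = 0 := by
    ext x
    have := hN x x.2
    rw [End_sum_apply] at this
    simp only [LinearMap.sum_apply, Submodule.coe_sum, hs_pow, this, LinearMap.zero_apply,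
      ZeroMemClass.coe_zero]
  have hinj' : Function.Injective ⇑(s - 1 : Module.End ℤ S) := by
    rw [injective_iff_map_eq_zero]
    intro x hx
    have h1 : s x = x := by
      have : (s - 1 : Module.End ℤ S) x = s x - x := rfl
      rw [this, sub_eq_zero] at hx
      exact hx
    have h2 : σ x = x := by rw [← hs1, h1]
    exact Subtype.ext (hinj x x.2 h2)
  have key := index_range_sub_one hp s hs hinj'
  have hb := relIndex_map_eq_index_range (S.subtype.toAddMonoidHom)
    (by exact Subtype.coe_injective) (σ - 1 : AddMonoid.End A)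
    ((s - 1 : Module.End ℤ S).toAddMonoidHom) (by intro x; rfl)
  have hr : S.subtype.toAddMonoidHom.range = S.toAddSubgroup := by
    ext x; simp
  rw [hr] at hb
  rw [hb, ← key]
  rfl

theorem finrank_eq_of_smul_le {A : Type*} [AddCommGroup A] [Module.Finite ℤ A]
    (S T : Submodule ℤ A) (k : ℕ) (hk : k ≠ 0) (hTS : T ≤ S) (hST : ∀ x ∈ S, k • x ∈ T) :
    Module.finrank ℤ T = Module.finrank ℤ S := by
  apply le_antisymm (Submodule.finrank_mono hTS)
  let ν : S →ₗ[ℤ] T :=
    { toFun := fun x => ⟨k • (x : A), hST x x.2⟩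
      map_add' := fun x y => by ext; simp
      map_smul' := fun c x => by
        ext
        show k • (c • (x : A)) = c • (k • (x : A))
        rw [smul_comm] }
  have h1 := (LinearMap.ker ν).finrank_quotient_add_finrank
  have h2 : Module.finrank ℤ (LinearMap.ker ν) = 0 := by
    rw [Module.finrank_eq_zero_iff_isTorsion]
    intro x
    refine ⟨⟨(k : ℤ), mem_nonZeroDivisors_of_ne_zero (by exact_mod_cast hk)⟩, ?_⟩
    have hx : ν x.1 = 0 := x.2
    have hx' : k • ((x.1 : S) : A) = 0 := congrArg (fun t : T => (t : A)) hx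
    ext
    simpa using hx'
  have h3 : Module.finrank ℤ (S ⧸ LinearMap.ker ν) = Module.finrank ℤ (LinearMap.range ν) :=
    ν.quotKerEquivRange.finrank_eq
  have h4 : Module.finrank ℤ (LinearMap.range ν) ≤ Module.finrank ℤ T := Submodule.finrank_le _
  omega

end Fermat.Agent.S14.HQ
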