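/-
T14 package HQ: Herbrand quotient of a finitely generated abelian group with an automorphism of
prime order `p`, computed from ranks.  Pure algebra, Mathlib only.

Math.  `A` f.g. abelian, `σ^p = 1`, `N = 1 + σ + ... + σ^(p-1)`, `D = σ - 1`.
`H^0 = ker D / im N`, `H^1 = ker N / im D`.  Then both are finite and
`|H^1| * p^a = |H^0| * p^((n-a)/(p-1))` where `n = rank A`, `a = rank A^σ`.
Proof sketch: (1) torsion subgroup is finite, finite modules have `|H^0| = |H^1|`, and the Herbrand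
quotient is multiplicative in short exact sequences (only needed for the two sequences
`0 → T → A → A/T → 0` and `0 → B → A → C → 0` below; it may be proved by hand).  So assume `A`
torsion free.  (2) `B := A^σ = ker D` (free of rank `a`, trivial action: `H^0 = B/pB` of order `p^a`,
`H^1 = 0`).  (3) `C := A/B` is torsion free, `N` acts as `0` on `C`, `C^σ = 0`; hence `H^0(C) = 0`
and `H^1(C) = C/(σ-1)C`.  In `ℤ[σ]/(N)`: `p = (1-σ)^(p-1) * unit`, so `(σ-1)^(p-1) C = p C`; the
successive quotients of `C ⊇ (σ-1)C ⊇ ... ⊇ (σ-1)^(p-1)C = pC` are all isomorphic (σ-1 injective),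
so `|C/(σ-1)C|^(p-1) = |C/pC| = p^(n-a)`.

STATUS: PROVED (helper42).  Auxiliary lemmas live in `Fermat/Agent/S14/HerbrandAux.lean`
(namespace `Fermat.Agent.S14.HQ`).  Actual proof: (1) finite-index invariance of the Herbrand
quotient by Lang's index lemma (`HQ.herbrand_finiteIndex`), applied to the finite-index stable
subgroup `A' = (ker D ⊓ mA) ⊔ (ker N ⊓ mA)` (`m` kills the torsion); (2) on `B' = ker D ⊓ mA`:
`[B' : pB'] = p^a`; (3) on `M' = ker N ⊓ mA` (free, `N = 0`, `σ - 1` injective):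
`[M' : (σ-1)M']^(p-1) = |det(σ-1)|^(p-1) = p^rank` from `∏_{0<k<p} (1 - X^k) ≡ p mod Φ_p` and the
cyclotomic units (`HQ.natAbs_det_pow_eq`).
-/
import Mathlib
import Fermat.Agent.S14.HerbrandAux

set_option autoImplicit false

namespace Fermat.Agent.S14

open Finset HQ

/-- exponent of the torsion of a finitely generated abelian group -/
theorem HQ.exists_torsion_exponent (A : Type*) [AddCommGroup A] [Module.Finite ℤ A] :
    ∃ m : ℕ, m ≠ 0 ∧ ∀ x : A, ∀ k : ℤ, k ≠ 0 → k • x = 0 → m • x = 0 := by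
  have hT : Module.IsTorsion ℤ (Submodule.torsion ℤ A) := Submodule.torsion_isTorsion
  have hfin : Finite (Submodule.torsion ℤ A) := Module.finite_of_fg_torsion _ hT
  refine ⟨Nat.card (Submodule.torsion ℤ A), Nat.card_pos.ne', ?_⟩
  intro x k hk hx
  have hxT : x ∈ Submodule.torsion ℤ A := by
    rw [Submodule.mem_torsion_iff]
    exact ⟨⟨k, mem_nonZeroDivisors_of_ne_zero hk⟩, hx⟩
  have := card_nsmul_eq_zero' (G := Submodule.torsion ℤ A) (x := ⟨x, hxT⟩)
  simpa using congrArg (fun t : Submodule.torsion ℤ A => (t : A)) this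

/-- the image of multiplication by a nonzero integer has finite index -/
theorem HQ.index_range_nsmul_ne_zero (A : Type*) [AddCommGroup A] [Module.Finite ℤ A] {q : ℕ}
    (hq : q ≠ 0) : (nsmulAddMonoidHom (α := A) q).range.index ≠ 0 := by
  set Q : AddSubgroup A := (nsmulAddMonoidHom (α := A) q).range
  have hT : Module.IsTorsion ℤ (A ⧸ Q.toIntSubmodule) := by
    intro x
    refine ⟨⟨(q : ℤ), mem_nonZeroDivisors_of_ne_zero (by exact_mod_cast hq)⟩, ?_⟩
    obtain ⟨y, rfl⟩ := Submodule.Quotient.mk_surjective _ x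
    show (q : ℤ) • (Submodule.Quotient.mk y : A ⧸ Q.toIntSubmodule) = 0
    rw [← Submodule.Quotient.mk_smul, Submodule.Quotient.mk_eq_zero]
    exact ⟨y, by simp⟩
  have hfin : Finite (A ⧸ Q.toIntSubmodule) := Module.finite_of_fg_torsion _ hT
  have : Finite (A ⧸ Q) := hfin
  exact AddSubgroup.index_ne_zero_of_finite


theorem HQ.herbrand_core {p : ℕ} (hp : p.Prime) {A : Type*} [AddCommGroup A] [Module.Finite ℤ A]
    (σ : AddMonoid.End A) (hσ : σ ^ p = 1) (N D : A →+ A)
    (hNdef : ∀ x, N x = (∑ i ∈ Finset.range p, σ ^ i : AddMonoid.End A) x)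
    (hDdef : ∀ x, D x = (σ - 1 : AddMonoid.End A) x) (a n : ℕ)
    (hn : Module.finrank ℤ A = n)
    (ha : Module.finrank ℤ (AddMonoidHom.ker D) = a) :
    (AddMonoidHom.range D).relIndex (AddMonoidHom.ker N) ≠ 0 ∧
    (AddMonoidHom.range N).relIndex (AddMonoidHom.ker D) ≠ 0 ∧
      (AddMonoidHom.range D).relIndex (AddMonoidHom.ker N) * p ^ a =
        (AddMonoidHom.range N).relIndex (AddMonoidHom.ker D) * p ^ ((n - a) / (p - 1)) := by
  -- ring identities in `AddMonoid.End A`
  set N0 : AddMonoid.End A := ∑ i ∈ Finset.range p, σ ^ i with hN0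
  set D0 : AddMonoid.End A := σ - 1 with hD0
  have hND0 : N0 * D0 = 0 := by
    rw [hN0, hD0, geom_sum_mul, hσ, sub_self]
  have hDN0 : D0 * N0 = 0 := by
    rw [hN0, hD0, mul_geom_sum, hσ, sub_self]
  have hNσ0 : N0 * σ = N0 := by
    have : N0 * (σ - 1) = 0 := hND0
    rw [mul_sub, mul_one, sub_eq_zero] at this
    exact this
  have hNpow : ∀ i : ℕ, N0 * σ ^ i = N0 := by
    intro i
    induction i with
    | zero => simp
    | succ i ih => rw [pow_succ, ← mul_assoc, ih, hNσ0]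
  have hNN0 : N0 * N0 = (p : AddMonoid.End A) * N0 := by
    conv_lhs => rw [hN0, Finset.mul_sum]
    rw [Finset.sum_congr rfl (fun i _ => hNpow i), Finset.sum_const, Finset.card_range,
      nsmul_eq_mul]
  -- pointwise versions
  have hDx : ∀ x, D x = σ x - x := fun x => hDdef x
  have hDNx : ∀ x, D (N x) = 0 := fun x => by
    have := congrArg (fun f : AddMonoid.End A => f x) hDN0
    rw [hDdef, hNdef]
    simpa [End_mul_apply, End_zero_apply] using this
  have hNDx : ∀ x, N (D x) = 0 := fun x => by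
    have := congrArg (fun f : AddMonoid.End A => f x) hND0
    rw [hNdef, hDdef]
    simpa [End_mul_apply, End_zero_apply] using this
  have hNNx : ∀ x, N (N x) = p • N x := fun x => by
    have := congrArg (fun f : AddMonoid.End A => f x) hNN0
    rw [hNdef, hNdef]
    simpa [End_mul_apply] using this
  have hfix : ∀ x, σ x = x → N x = p • x := by
    intro x hx
    have hpow : ∀ i : ℕ, (σ ^ i) x = x := by
      intro i
      induction i with
      | zero => rfl
      | succ i ih => rw [pow_succ, End_mul_apply, hx, ih]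
    rw [hNdef, hN0, End_sum_apply, Finset.sum_congr rfl (fun i _ => hpow i), Finset.sum_const,
      Finset.card_range]
  have hNσx : ∀ x, N (σ x) = N x := fun x => by
    have := congrArg (fun f : AddMonoid.End A => f x) hNσ0
    rw [hNdef, hNdef]
    simpa [End_mul_apply] using this
  -- torsion exponent
  obtain ⟨m, hm0, hm⟩ := HQ.exists_torsion_exponent A
  have hpm : p * m ≠ 0 := Nat.mul_ne_zero hp.ne_zero hm0
  -- the subgroups
  set A2 : AddSubgroup A := (nsmulAddMonoidHom (α := A) m).range with hA2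
  have hA2mem : ∀ x, x ∈ A2 ↔ ∃ y, m • y = x := fun x => by
    rw [hA2, AddMonoidHom.mem_range]; rfl
  have F1 : ∀ x ∈ A2, ∀ k : ℤ, k ≠ 0 → k • x = 0 → x = 0 := by
    intro x hx k hk hkx
    obtain ⟨y, rfl⟩ := (hA2mem x).1 hx
    apply hm y (k * m) (mul_ne_zero hk (by exact_mod_cast hm0))
    rw [mul_smul, natCast_zsmul]; exact hkx
  have hσA2 : ∀ x ∈ A2, σ x ∈ A2 := by
    intro x hx
    obtain ⟨y, rfl⟩ := (hA2mem x).1 hx
    exact (hA2mem _).2 ⟨σ y, (map_nsmul σ m y).symm⟩
  have hNA2 : ∀ x ∈ A2, N x ∈ A2 := by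
    intro x hx
    obtain ⟨y, rfl⟩ := (hA2mem x).1 hx
    exact (hA2mem _).2 ⟨N y, (map_nsmul N m y).symm⟩
  set B' : AddSubgroup A := AddMonoidHom.ker D ⊓ A2 with hB'
  set M' : AddSubgroup A := AddMonoidHom.ker N ⊓ A2 with hM'
  set A' : AddSubgroup A := B' ⊔ M' with hA'
  have hB'mem : ∀ x, x ∈ B' ↔ σ x = x ∧ x ∈ A2 := fun x => by
    rw [hB', AddSubgroup.mem_inf, AddMonoidHom.mem_ker, hDx, sub_eq_zero]
  have hM'mem : ∀ x, x ∈ M' ↔ N x = 0 ∧ x ∈ A2 := fun x => by
    rw [hM', AddSubgroup.mem_inf, AddMonoidHom.mem_ker]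
  have hA'mem : ∀ x, x ∈ A' ↔ ∃ b ∈ B', ∃ c ∈ M', b + c = x := fun x => AddSubgroup.mem_sup
  -- (F2)
  have F2 : ∀ x, x ∈ B' → x ∈ M' → x = 0 := by
    intro x hxB hxM
    obtain ⟨h1, h2⟩ := (hB'mem x).1 hxB
    obtain ⟨h3, -⟩ := (hM'mem x).1 hxM
    apply F1 x h2 (p : ℤ) (by exact_mod_cast hp.ne_zero)
    rw [natCast_zsmul, ← hfix x h1, h3]
  -- (F3)
  have F3 : ∀ y : A, (p * m) • y ∈ A' := by
    intro y
    set z := m • y with hz
    have hzA2 : z ∈ A2 := (hA2mem z).2 ⟨y, rfl⟩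
    have h1 : N z ∈ B' := (hB'mem _).2 ⟨by
      have := hDNx z; rw [hDx, sub_eq_zero] at this; exact this, hNA2 z hzA2⟩
    have h2 : p • z - N z ∈ M' := by
      refine (hM'mem _).2 ⟨?_, ?_⟩
      · rw [map_sub, map_nsmul, hNNx, sub_self]
      · exact A2.sub_mem (A2.nsmul_mem hzA2 p) (hNA2 z hzA2)
    refine (hA'mem _).2 ⟨N z, h1, p • z - N z, h2, ?_⟩
    rw [mul_smul]; abel
  -- (F4)
  have F4 : A'.index ≠ 0 := by
    have hle : (nsmulAddMonoidHom (α := A) (p * m)).range ≤ A' := by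
      rintro _ ⟨y, rfl⟩; exact F3 y
    exact ne_zero_of_dvd_ne_zero (HQ.index_range_nsmul_ne_zero A hpm)
      (AddSubgroup.index_dvd_of_le hle)
  -- (F5) stability
  have hσM' : ∀ x ∈ M', σ x ∈ M' := by
    intro x hx
    obtain ⟨h1, h2⟩ := (hM'mem x).1 hx
    exact (hM'mem _).2 ⟨by rw [hNσx, h1], hσA2 x h2⟩
  have hDM' : ∀ x ∈ M', D x ∈ M' := by
    intro x hx
    rw [hDx]
    exact M'.sub_mem (hσM' x hx) hx
  have hDB' : ∀ x ∈ B', D x = 0 := by
    intro x hx
    rw [hDx, ((hB'mem x).1 hx).1, sub_self]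
  have hNB' : ∀ x ∈ B', N x = p • x := fun x hx => hfix x ((hB'mem x).1 hx).1
  have hNM' : ∀ x ∈ M', N x = 0 := fun x hx => ((hM'mem x).1 hx).1
  have hDA' : ∀ b ∈ B', ∀ c ∈ M', D (b + c) = D c := by
    intro b hb c _
    rw [map_add, hDB' b hb, zero_add]
  have hNA' : ∀ b ∈ B', ∀ c ∈ M', N (b + c) = p • b := by
    intro b hb c hc
    rw [map_add, hNB' b hb, hNM' c hc, add_zero]
  have F5D : A'.map D ≤ A' := by
    rintro _ ⟨x, hx, rfl⟩
    obtain ⟨b, hb, c, hc, rfl⟩ := (hA'mem x).1 hx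
    rw [hDA' b hb c hc]
    exact (le_sup_right : M' ≤ A') (hDM' c hc)
  have F5N : A'.map N ≤ A' := by
    rintro _ ⟨x, hx, rfl⟩
    obtain ⟨b, hb, c, hc, rfl⟩ := (hA'mem x).1 hx
    rw [hNA' b hb c hc]
    exact (le_sup_left : B' ≤ A') (B'.nsmul_mem hb p)
  -- (F6)
  have F6D : AddMonoidHom.ker D ⊓ A' = B' := by
    apply le_antisymm
    · rintro x ⟨hx1, hx2⟩
      obtain ⟨b, hb, c, hc, rfl⟩ := (hA'mem x).1 hx2
      have h1 : D c = 0 := by
        rw [← hDA' b hb c hc]; exact hx1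
      have hcB : c ∈ B' := (hB'mem c).2 ⟨by rw [hDx, sub_eq_zero] at h1; exact h1,
        ((hM'mem c).1 hc).2⟩
      rw [F2 c hcB hc, add_zero]; exact hb
    · exact le_inf inf_le_left le_sup_left
  have F6N : AddMonoidHom.ker N ⊓ A' = M' := by
    apply le_antisymm
    · rintro x ⟨hx1, hx2⟩
      obtain ⟨b, hb, c, hc, rfl⟩ := (hA'mem x).1 hx2
      have h1 : N b = 0 := by
        have : N (b + c) = 0 := hx1
        rw [map_add, hNM' c hc, add_zero] at this; exact this
      have hbM : b ∈ M' := (hM'mem b).2 ⟨h1, ((hB'mem b).1 hb).2⟩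
      rw [F2 b hb hbM, zero_add]; exact hc
    · exact le_inf inf_le_left le_sup_right
  -- (F7)
  have F7N : A'.map N = B'.map (nsmulAddMonoidHom (α := A) p) := by
    apply le_antisymm
    · rintro _ ⟨x, hx, rfl⟩
      obtain ⟨b, hb, c, hc, rfl⟩ := (hA'mem x).1 hx
      exact ⟨b, hb, (hNA' b hb c hc).symm⟩
    · rintro _ ⟨b, hb, rfl⟩
      exact ⟨b, (le_sup_left : B' ≤ A') hb, hNB' b hb⟩
  have F7D : A'.map D = M'.map D := by
    apply le_antisymm
    · rintro _ ⟨x, hx, rfl⟩
      obtain ⟨b, hb, c, hc, rfl⟩ := (hA'mem x).1 hx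
      exact ⟨c, hc, (hDA' b hb c hc).symm⟩
    · exact AddSubgroup.map_mono le_sup_right
  -- finite-index invariance
  obtain ⟨G1, G2, G3⟩ := HQ.herbrand_finiteIndex D N hDNx hNDx A' F4 F5D F5N
  rw [F6D, F7N] at G1
  rw [F6N, F7D] at G2
  rw [F6D, F6N, F7N, F7D] at G3
  -- module structure of `B'`, `M'`
  have htfB : Module.IsTorsionFree ℤ ↥B'.toIntSubmodule :=
    Module.IsTorsionFree.of_smul_eq_zero (fun r x hrx => by
      by_cases hr : r = 0
      · exact Or.inl hr
      · right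
        have h1 : r • (x : A) = 0 := by
          have := congrArg (fun t : ↥B'.toIntSubmodule => (t : A)) hrx
          simpa using this
        exact Subtype.ext (F1 x ((hB'mem _).1 x.2).2 r hr h1))
  have htfM : Module.IsTorsionFree ℤ ↥M'.toIntSubmodule :=
    Module.IsTorsionFree.of_smul_eq_zero (fun r x hrx => by
      by_cases hr : r = 0
      · exact Or.inl hr
      · right
        have h1 : r • (x : A) = 0 := by
          have := congrArg (fun t : ↥M'.toIntSubmodule => (t : A)) hrx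
          simpa using this
        exact Subtype.ext (F1 x ((hM'mem _).1 x.2).2 r hr h1))
  have hfreeB : Module.Free ℤ ↥B'.toIntSubmodule := inferInstance
  have hfreeM : Module.Free ℤ ↥M'.toIntSubmodule := inferInstance
  -- ranks
  have rB : Module.finrank ℤ ↥B'.toIntSubmodule = a := by
    rw [← ha]
    exact finrank_eq_of_smul_le (AddMonoidHom.ker D).toIntSubmodule B'.toIntSubmodule m hm0
      (fun x hx => hx.1) (fun x hx => ⟨by
        show D (m • x) = 0
        rw [map_nsmul, show D x = 0 from hx, smul_zero], (hA2mem _).2 ⟨x, rfl⟩⟩)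
  have rA' : Module.finrank ℤ ↥A'.toIntSubmodule = n := by
    rw [← hn, ← finrank_top ℤ A]
    exact finrank_eq_of_smul_le ⊤ A'.toIntSubmodule (p * m) hpm le_top (fun x _ => F3 x)
  have hsup : A'.toIntSubmodule = B'.toIntSubmodule ⊔ M'.toIntSubmodule :=
    map_sup AddSubgroup.toIntSubmodule B' M'
  have hinf : B'.toIntSubmodule ⊓ M'.toIntSubmodule = ⊥ := by
    rw [eq_bot_iff]
    rintro x ⟨h1, h2⟩
    exact (Submodule.mem_bot ℤ).2 (F2 x h1 h2)
  have rsum : Module.finrank ℤ ↥A'.toIntSubmodule =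
      Module.finrank ℤ ↥B'.toIntSubmodule + Module.finrank ℤ ↥M'.toIntSubmodule := by
    have := Submodule.rank_sup_add_rank_inf_eq B'.toIntSubmodule M'.toIntSubmodule
    rw [hinf, rank_bot, add_zero, ← hsup, ← Module.finrank_eq_rank, ← Module.finrank_eq_rank,
      ← Module.finrank_eq_rank] at this
    exact_mod_cast this
  have rM : Module.finrank ℤ ↥M'.toIntSubmodule = n - a := by omega
  -- the two indices
  have I0 : (B'.map (nsmulAddMonoidHom (α := A) p)).relIndex B' = p ^ a := by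
    rw [← rB]
    exact AddSubgroup.relIndex_map_nsmul p B'
  have hDeq : D = (σ - 1 : AddMonoid.End A) := AddMonoidHom.ext hDdef
  have I1 : (M'.map D).relIndex M' = p ^ ((n - a) / (p - 1)) := by
    rw [← rM, hDeq]
    exact relIndex_map_sub_one hp σ M'.toIntSubmodule hσM'
      (fun x hx => by rw [← hNdef]; exact hNM' x hx)
      (fun x hx hfx => F2 x ((hB'mem x).2 ⟨hfx, ((hM'mem x).1 hx).2⟩) hx)
  rw [I0] at G1 G3
  rw [I1] at G2 G3
  have hp0 : ∀ k : ℕ, p ^ k ≠ 0 := fun k => pow_ne_zero k hp.ne_zero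
  refine ⟨G2.2 (hp0 _), G1.2 (hp0 _), ?_⟩
  rw [mul_comm, G3]

theorem herbrand_of_rank {p : ℕ} (hp : p.Prime) {A : Type*} [AddCommGroup A] [Module.Finite ℤ A]
    (σ : AddMonoid.End A) (hσ : σ ^ p = 1) (a n : ℕ)
    (hn : Module.finrank ℤ A = n)
    (ha : Module.finrank ℤ (AddMonoidHom.ker (σ - 1 : AddMonoid.End A)) = a) :
    let N : AddMonoid.End A := ∑ i ∈ Finset.range p, σ ^ i
    let D : AddMonoid.End A := σ - 1
    (AddMonoidHom.range D).relIndex (AddMonoidHom.ker N) ≠ 0 ∧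
    (AddMonoidHom.range N).relIndex (AddMonoidHom.ker D) ≠ 0 ∧
      (AddMonoidHom.range D).relIndex (AddMonoidHom.ker N) * p ^ a =
        (AddMonoidHom.range N).relIndex (AddMonoidHom.ker D) * p ^ ((n - a) / (p - 1)) := by
  intro N D
  exact HQ.herbrand_core hp σ hσ N D (fun _ => rfl) (fun _ => rfl) a n hn ha

end Fermat.Agent.S14
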