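/-
T14 package UH (units Herbrand quotient).

Math.  `L/K` Galois of prime degree `p`, `K` totally complex, `σ ≠ 1` in `Gal(L/K)`, `U` a `σ`-stable
subgroup of finite index of `(𝓞 L)ˣ`.  With `N u = ∏_{i<p} σ^i u`, `D u = σ u / u`:
`|{u ∈ U : N u = 1} / D(U)| = p * |{u ∈ U : σ u = u} / N(U)|`   (`|H^1(U)| = p |H^0(U)|`).

Proof.  Package HQ (`herbrand_of_rank`) applied to `U` (additively) with
`n = rank U = rank (𝓞 L)ˣ = p c - 1`, `a = rank U^σ = rank (𝓞 K)ˣ = c - 1`, where `c` is the number of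
(complex) places of `K`; `(n - a)/(p - 1) = c = a + 1`.
-/
import Fermat.Agent.S14.Defs
import Fermat.Agent.S14.Herbrand

set_option autoImplicit false

open NumberField Module

namespace Fermat.Agent.S14

namespace UH

section Abstract

variable {M : Type*} [AddCommGroup M]

/-- If `m • B ⊆ A ⊆ B` with `m ≠ 0`, then `A` and `B` have the same `ℤ`-rank. -/
theorem finrank_eq_of_nsmul_mem [Module.Finite ℤ M] (A B : AddSubgroup M) (hAB : A ≤ B) (m : ℕ)
    (hm : m ≠ 0) (h : ∀ b ∈ B, m • b ∈ A) : finrank ℤ A = finrank ℤ B := by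
  have hnoeth : IsNoetherian ℤ M := inferInstance
  refine le_antisymm ?_ ?_
  · exact Submodule.finrank_mono (s := A.toIntSubmodule) (t := B.toIntSubmodule)
      (by simpa using hAB)
  · -- the map `b ↦ m • b : B → A`
    let g : B.toIntSubmodule →ₗ[ℤ] A.toIntSubmodule :=
      { toFun := fun b => ⟨m • (b : M), h b b.2⟩
        map_add' := fun x y => by ext; simp
        map_smul' := fun c x => by
          ext
          exact smul_comm m c (x : M) }
    have hker : finrank ℤ (LinearMap.ker g) = 0 := by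
      rw [Module.finrank_eq_zero_iff_isTorsion]
      intro x
      refine ⟨⟨(m : ℤ), by simpa using hm⟩, ?_⟩
      have hx : g x = 0 := LinearMap.mem_ker.mp x.2
      have hx' : m • ((x : B.toIntSubmodule) : M) = 0 :=
        congrArg (fun z : A.toIntSubmodule => (z : M)) hx
      ext
      simpa using hx'
    have hrn := Submodule.finrank_quotient_add_finrank (LinearMap.ker g)
    have hq : finrank ℤ (B.toIntSubmodule ⧸ LinearMap.ker g) = finrank ℤ (LinearMap.range g) :=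
      (LinearMap.quotKerEquivRange g).finrank_eq
    have hle : finrank ℤ (LinearMap.range g) ≤ finrank ℤ A.toIntSubmodule :=
      Submodule.finrank_le _
    have : finrank ℤ B.toIntSubmodule ≤ finrank ℤ A.toIntSubmodule := by omega
    exact this

/-- The restriction of an endomorphism to a stable subgroup. -/
def restrictEnd (τ : AddMonoid.End M) (S : AddSubgroup M) (hS : ∀ x ∈ S, τ x ∈ S) :
    AddMonoid.End S :=
  AddMonoidHom.mk' (fun x => ⟨τ x, hS x x.2⟩) (fun x y => by ext; simp)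

@[simp] theorem coe_restrictEnd (τ : AddMonoid.End M) (S : AddSubgroup M)
    (hS : ∀ x ∈ S, τ x ∈ S) (x : S) : ((restrictEnd τ S hS x : S) : M) = τ x := rfl

theorem coe_restrictEnd_pow (τ : AddMonoid.End M) (S : AddSubgroup M)
    (hS : ∀ x ∈ S, τ x ∈ S) (k : ℕ) (x : S) :
    (((restrictEnd τ S hS ^ k) x : S) : M) = (τ ^ k) x := by
  induction k generalizing x with
  | zero => simp
  | succ k ih =>
    rw [pow_succ, pow_succ, AddMonoid.End.coe_mul, AddMonoid.End.coe_mul, Function.comp_apply,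
      Function.comp_apply, ih, coe_restrictEnd]

theorem coe_restrictEnd_sub_one (τ : AddMonoid.End M) (S : AddSubgroup M)
    (hS : ∀ x ∈ S, τ x ∈ S) (x : S) :
    (((restrictEnd τ S hS - 1 : AddMonoid.End S) x : S) : M) = (τ - 1 : AddMonoid.End M) x := by
  change ((restrictEnd τ S hS x - x : S) : M) = τ x - x
  simp

theorem coe_restrictEnd_sum (τ : AddMonoid.End M) (S : AddSubgroup M)
    (hS : ∀ x ∈ S, τ x ∈ S) (p : ℕ) (x : S) :
    (((∑ i ∈ Finset.range p, restrictEnd τ S hS ^ i : AddMonoid.End S) x : S) : M) =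
      (∑ i ∈ Finset.range p, τ ^ i : AddMonoid.End M) x := by
  induction p with
  | zero => simp
  | succ k ih =>
    rw [Finset.sum_range_succ, Finset.sum_range_succ]
    change (((∑ i ∈ Finset.range k, restrictEnd τ S hS ^ i : AddMonoid.End S) x +
      (restrictEnd τ S hS ^ k) x : S) : M) =
      (∑ i ∈ Finset.range k, τ ^ i : AddMonoid.End M) x + (τ ^ k) x
    rw [AddSubgroup.coe_add, ih, coe_restrictEnd_pow]

theorem map_ker_eq (S : AddSubgroup M) {f : AddMonoid.End M} {g : AddMonoid.End S}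
    (hfg : ∀ x : S, ((g x : S) : M) = f x) :
    (AddMonoidHom.ker g).map S.subtype = S ⊓ AddMonoidHom.ker f := by
  ext x
  constructor
  · rintro ⟨s, hs, rfl⟩
    have hs' : g s = 0 := hs
    refine ⟨s.2, ?_⟩
    show f (s : M) = 0
    rw [← hfg, hs']
    rfl
  · rintro ⟨hxS, hx⟩
    have hx' : f x = 0 := hx
    refine ⟨⟨x, hxS⟩, ?_, rfl⟩
    show g ⟨x, hxS⟩ = 0
    apply Subtype.ext
    rw [hfg]
    exact hx'

theorem map_range_eq (S : AddSubgroup M) {f : AddMonoid.End M} {g : AddMonoid.End S}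
    (hfg : ∀ x : S, ((g x : S) : M) = f x) :
    (AddMonoidHom.range g).map S.subtype = S.map f := by
  ext x
  constructor
  · rintro ⟨_, ⟨s, rfl⟩, rfl⟩
    exact ⟨s, s.2, (hfg s).symm⟩
  · rintro ⟨s, hs, rfl⟩
    exact ⟨_, ⟨⟨s, hs⟩, rfl⟩, hfg ⟨s, hs⟩⟩

/-- Package HQ for a stable subgroup `S` of finite exponent-index in a f.g. abelian group `M`,
with the answer expressed by subgroups of `M` and the ranks of `M` and `M^τ`. -/
theorem herbrand_of_rank_subgroup {p : ℕ} (hp : p.Prime) [Module.Finite ℤ M]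
    (τ : AddMonoid.End M) (hτ : τ ^ p = 1) (S : AddSubgroup M) (hS : ∀ x ∈ S, τ x ∈ S)
    (m : ℕ) (hm : m ≠ 0) (hmS : ∀ x : M, m • x ∈ S) (a n : ℕ)
    (hn : finrank ℤ M = n)
    (ha : finrank ℤ (AddMonoidHom.ker (τ - 1 : AddMonoid.End M)) = a) :
    (S.map (τ - 1 : AddMonoid.End M)).relIndex
        (S ⊓ AddMonoidHom.ker (∑ i ∈ Finset.range p, τ ^ i : AddMonoid.End M)) ≠ 0 ∧
    (S.map (∑ i ∈ Finset.range p, τ ^ i : AddMonoid.End M)).relIndex
        (S ⊓ AddMonoidHom.ker (τ - 1 : AddMonoid.End M)) ≠ 0 ∧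
    (S.map (τ - 1 : AddMonoid.End M)).relIndex
        (S ⊓ AddMonoidHom.ker (∑ i ∈ Finset.range p, τ ^ i : AddMonoid.End M)) * p ^ a =
      (S.map (∑ i ∈ Finset.range p, τ ^ i : AddMonoid.End M)).relIndex
        (S ⊓ AddMonoidHom.ker (τ - 1 : AddMonoid.End M)) * p ^ ((n - a) / (p - 1)) := by
  have hnoeth : IsNoetherian ℤ M := inferInstance
  have : Module.Finite ℤ S :=
    Module.Finite.of_injective (S.subtype.toIntLinearMap) Subtype.coe_injective
  have hτSp : restrictEnd τ S hS ^ p = 1 := by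
    ext x
    rw [coe_restrictEnd_pow, hτ]
    rfl
  -- ranks
  have hnS : finrank ℤ S = n := by
    rw [← hn]
    have h1 : finrank ℤ S = finrank ℤ (⊤ : AddSubgroup M) :=
      finrank_eq_of_nsmul_mem S ⊤ le_top m hm (fun b _ => hmS b)
    rw [h1]
    exact (AddSubgroup.topEquiv (G := M)).toIntLinearEquiv.finrank_eq
  have hinj : Function.Injective S.subtype := Subtype.coe_injective
  have hkerD := map_ker_eq S (coe_restrictEnd_sub_one τ S hS)
  have hkerN := map_ker_eq S (coe_restrictEnd_sum τ S hS p)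
  have hrangeD := map_range_eq S (coe_restrictEnd_sub_one τ S hS)
  have hrangeN := map_range_eq S (coe_restrictEnd_sum τ S hS p)
  have haS : finrank ℤ (AddMonoidHom.ker (restrictEnd τ S hS - 1 : AddMonoid.End S)) = a := by
    rw [← ha]
    have e1 := (AddSubgroup.equivMapOfInjective
      (AddMonoidHom.ker (restrictEnd τ S hS - 1 : AddMonoid.End S))
      S.subtype hinj).toIntLinearEquiv.finrank_eq
    rw [e1, hkerD]
    exact finrank_eq_of_nsmul_mem _ _ inf_le_right m hm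
      (fun b hb => ⟨hmS b, (AddMonoidHom.ker (τ - 1 : AddMonoid.End M)).nsmul_mem hb m⟩)
  obtain ⟨h1, h2, h3⟩ := herbrand_of_rank hp (restrictEnd τ S hS) hτSp a n hnS haS
  rw [← AddSubgroup.relIndex_map_map_of_injective _ _ hinj, hrangeD, hkerN] at h1 h3
  rw [← AddSubgroup.relIndex_map_map_of_injective
    (AddMonoidHom.range (∑ i ∈ Finset.range p, restrictEnd τ S hS ^ i : AddMonoid.End S)) _ hinj,
    hrangeN, hkerD] at h2 h3
  exact ⟨h1, h2, h3⟩

end Abstract

section Units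

variable {K L : Type*} [Field K] [NumberField K] [Field L] [NumberField L] [Algebra K L]

/-- The action of `σ ∈ Gal(L/K)` on the units of `𝓞 L`, as a monoid endomorphism. -/
noncomputable def unitAct (σ : L ≃ₐ[K] L) : (𝓞 L)ˣ →* (𝓞 L)ˣ :=
  Units.map (MulSemiringAction.toRingHom (L ≃ₐ[K] L) (𝓞 L) σ : 𝓞 L →* 𝓞 L)

omit [NumberField K] [NumberField L] in
theorem coe_unitAct (σ : L ≃ₐ[K] L) (u : (𝓞 L)ˣ) :
    ((unitAct σ u : (𝓞 L)ˣ) : 𝓞 L) = σ • (u : 𝓞 L) := rfl

omit [NumberField K] [NumberField L] in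
theorem coe_coe_unitAct (σ : L ≃ₐ[K] L) (u : (𝓞 L)ˣ) :
    (((unitAct σ u : (𝓞 L)ˣ) : 𝓞 L) : L) = σ ((u : 𝓞 L) : L) := rfl

omit [NumberField K] [NumberField L] in
theorem unitAct_one : unitAct (1 : L ≃ₐ[K] L) = MonoidHom.id _ := by
  ext u
  simp [coe_unitAct]

omit [NumberField K] [NumberField L] in
theorem unitAct_mul (σ τ : L ≃ₐ[K] L) : unitAct (σ * τ) = (unitAct σ).comp (unitAct τ) := by
  ext u
  simp [coe_unitAct, mul_smul]

/-- `u ↦ σ u / u` on units. -/
noncomputable def unitDlt (σ : L ≃ₐ[K] L) : (𝓞 L)ˣ →* (𝓞 L)ˣ :=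
  unitAct σ / MonoidHom.id _

/-- `u ↦ ∏_{i<p} σ^i u` on units. -/
noncomputable def unitNrm (σ : L ≃ₐ[K] L) (p : ℕ) : (𝓞 L)ˣ →* (𝓞 L)ˣ :=
  ∏ i ∈ Finset.range p, unitAct (σ ^ i)

omit [NumberField K] [NumberField L] in
@[simp] theorem unitDlt_apply (σ : L ≃ₐ[K] L) (u : (𝓞 L)ˣ) : unitDlt σ u = unitAct σ u / u := rfl

omit [NumberField K] [NumberField L] in
theorem unitNrm_apply (σ : L ≃ₐ[K] L) (p : ℕ) (u : (𝓞 L)ˣ) :
    unitNrm σ p u = ∏ i ∈ Finset.range p, unitAct (σ ^ i) u := by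
  simp [unitNrm]

/-- The additive endomorphism of `Additive (𝓞 L)ˣ` induced by `σ`. -/
noncomputable def addAct (σ : L ≃ₐ[K] L) : AddMonoid.End (Additive (𝓞 L)ˣ) :=
  MonoidHom.toAdditive (unitAct σ)

omit [NumberField K] [NumberField L] in
theorem addAct_apply (σ : L ≃ₐ[K] L) (x : Additive (𝓞 L)ˣ) :
    addAct σ x = Additive.ofMul (unitAct σ x.toMul) := rfl

omit [NumberField K] [NumberField L] in
theorem addAct_pow (σ : L ≃ₐ[K] L) (k : ℕ) : addAct σ ^ k = addAct (σ ^ k) := by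
  induction k with
  | zero =>
    ext x
    simp [addAct_apply, unitAct_one]
  | succ k ih =>
    rw [pow_succ, pow_succ, ih]
    ext x
    rw [AddMonoid.End.coe_mul, Function.comp_apply, addAct_apply, addAct_apply, addAct_apply,
      unitAct_mul]
    rfl

omit [NumberField K] [NumberField L] in
theorem addAct_sub_one_apply (σ : L ≃ₐ[K] L) (x : Additive (𝓞 L)ˣ) :
    (addAct σ - 1 : AddMonoid.End (Additive (𝓞 L)ˣ)) x = Additive.ofMul (unitDlt σ x.toMul) := rfl

omit [NumberField K] [NumberField L] in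
theorem addAct_sum_apply (σ : L ≃ₐ[K] L) (p : ℕ) (x : Additive (𝓞 L)ˣ) :
    (∑ i ∈ Finset.range p, addAct σ ^ i : AddMonoid.End (Additive (𝓞 L)ˣ)) x =
      Additive.ofMul (unitNrm σ p x.toMul) := by
  induction p with
  | zero => simp [unitNrm]
  | succ k ih =>
    rw [Finset.sum_range_succ]
    change (∑ i ∈ Finset.range k, addAct σ ^ i : AddMonoid.End (Additive (𝓞 L)ˣ)) x +
      (addAct σ ^ k) x = _
    rw [ih, addAct_pow, addAct_apply, unitNrm_apply, unitNrm_apply, Finset.prod_range_succ]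
    rfl

/-- The inclusion `(𝓞 K)ˣ → (𝓞 L)ˣ`. -/
noncomputable def baseUnits : (𝓞 K)ˣ →* (𝓞 L)ˣ :=
  Units.map (algebraMap (𝓞 K) (𝓞 L) : 𝓞 K →* 𝓞 L)

omit [NumberField K] [NumberField L] in
theorem coe_coe_baseUnits (v : (𝓞 K)ˣ) :
    (((baseUnits (L := L) v : (𝓞 L)ˣ) : 𝓞 L) : L) = algebraMap K L ((v : 𝓞 K) : K) := by
  change algebraMap (𝓞 L) L (algebraMap (𝓞 K) (𝓞 L) (v : 𝓞 K)) = _
  rw [← IsScalarTower.algebraMap_apply (𝓞 K) (𝓞 L) L, IsScalarTower.algebraMap_apply (𝓞 K) K L]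

omit [NumberField K] [NumberField L] in
theorem baseUnits_injective : Function.Injective (baseUnits (K := K) (L := L)) := by
  intro v w h
  have h1 := congrArg (fun u : (𝓞 L)ˣ => ((u : 𝓞 L) : L)) h
  simp only [coe_coe_baseUnits] at h1
  exact Units.ext (RingOfIntegers.ext ((algebraMap K L).injective h1))

omit [NumberField K] [NumberField L] in
theorem unitAct_baseUnits (σ : L ≃ₐ[K] L) (v : (𝓞 K)ˣ) :
    unitAct σ (baseUnits v) = baseUnits v := by
  apply Units.ext
  apply RingOfIntegers.ext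
  rw [coe_coe_unitAct, coe_coe_baseUnits, AlgEquiv.commutes]

theorem mem_range_baseUnits_of_fixed [IsGalois K L] (u : (𝓞 L)ˣ)
    (h : ∀ σ : L ≃ₐ[K] L, unitAct σ u = u) : u ∈ (baseUnits (K := K) (L := L)).range := by
  have hfix : ∀ w : (𝓞 L)ˣ, (∀ σ : L ≃ₐ[K] L, unitAct σ w = w) →
      ∃ y : K, IsIntegral ℤ y ∧ algebraMap K L y = ((w : 𝓞 L) : L) := by
    intro w hw
    have h1 : ((w : 𝓞 L) : L) ∈ Set.range (algebraMap K L) := by
      rw [IsGalois.mem_range_algebraMap_iff_fixed]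
      intro σ
      rw [← coe_coe_unitAct, hw σ]
    obtain ⟨y, hy⟩ := h1
    refine ⟨y, ?_, hy⟩
    rw [← isIntegral_algebraMap_iff (algebraMap K L).injective (R := ℤ), hy]
    exact (w : 𝓞 L).2
  obtain ⟨y, hyint, hy⟩ := hfix u h
  have hinv : ∀ σ : L ≃ₐ[K] L, unitAct σ u⁻¹ = u⁻¹ := fun σ => by rw [map_inv, h σ]
  obtain ⟨y', hyint', hy'⟩ := hfix u⁻¹ hinv
  have hyy' : y * y' = 1 := by
    apply (algebraMap K L).injective
    rw [map_mul, hy, hy', map_one]
    have : ((u : 𝓞 L) * ((u⁻¹ : (𝓞 L)ˣ) : 𝓞 L) : 𝓞 L) = 1 := by simp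
    have h2 := congrArg (fun z : 𝓞 L => (z : L)) this
    simpa only [map_mul, map_one] using h2
  have hy'y : y' * y = 1 := by rw [mul_comm]; exact hyy'
  refine ⟨⟨⟨y, hyint⟩, ⟨y', hyint'⟩, ?_, ?_⟩, ?_⟩
  · exact RingOfIntegers.ext hyy'
  · exact RingOfIntegers.ext hy'y
  · apply Units.ext
    apply RingOfIntegers.ext
    rw [coe_coe_baseUnits]
    exact hy

/-- For `σ ≠ 1` in a Galois group of prime order, the units fixed by `σ` are exactly the units
coming from `K`. -/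
theorem ker_unitDlt_eq_range [IsGalois K L] {p : ℕ} (hp : p.Prime)
    (hdeg : finrank K L = p) (σ : L ≃ₐ[K] L) (hσ : σ ≠ 1) :
    (unitDlt σ).ker = (baseUnits (K := K) (L := L)).range := by
  have : FiniteDimensional K L := Module.finite_of_finrank_pos (by rw [hdeg]; exact hp.pos)
  have hcard : Nat.card (L ≃ₐ[K] L) = p := by rw [IsGalois.card_aut_eq_finrank, hdeg]
  have : Fact p.Prime := ⟨hp⟩
  have htop : Subgroup.zpowers σ = ⊤ := zpowers_eq_top_of_prime_card hcard hσ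
  ext u
  constructor
  · intro hu
    have hu' : unitAct σ u = u := by
      have : unitAct σ u / u = 1 := hu
      exact div_eq_one.mp this
    apply mem_range_baseUnits_of_fixed
    -- the stabiliser of `u` is a subgroup containing `σ`
    let H : Subgroup (L ≃ₐ[K] L) :=
      { carrier := {τ | unitAct τ u = u}
        mul_mem' := fun {a b} ha hb => by
          change unitAct (a * b) u = u
          rw [unitAct_mul, MonoidHom.comp_apply, (hb : unitAct b u = u), (ha : unitAct a u = u)]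
        one_mem' := by
          change unitAct 1 u = u
          rw [unitAct_one]; rfl
        inv_mem' := fun {a} ha => by
          change unitAct a⁻¹ u = u
          have h1 : unitAct a⁻¹ (unitAct a u) = u := by
            rw [← MonoidHom.comp_apply, ← unitAct_mul, inv_mul_cancel, unitAct_one]; rfl
          rwa [(ha : unitAct a u = u)] at h1 }
    have hσH : σ ∈ H := hu'
    have hle : Subgroup.zpowers σ ≤ H := (Subgroup.zpowers_le).mpr hσH
    rw [htop] at hle
    intro τ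
    exact hle (Subgroup.mem_top τ)
  · rintro ⟨v, rfl⟩
    change unitAct σ (baseUnits v) / baseUnits v = 1
    rw [unitAct_baseUnits, div_self']

theorem rank_add_one_of_isTotallyComplex (F : Type*) [Field F] [NumberField F]
    [IsTotallyComplex F] : Units.rank F + 1 = InfinitePlace.nrComplexPlaces F := by
  have h1 := InfinitePlace.card_eq_nrRealPlaces_add_nrComplexPlaces F
  rw [IsTotallyComplex.nrRealPlaces_eq_zero, zero_add] at h1
  have h2 : 0 < Fintype.card (InfinitePlace F) := Fintype.card_pos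
  rw [Units.rank, h1] at *
  omega

theorem nrComplexPlaces_of_finrank [IsTotallyComplex K] {p : ℕ} (hdeg : finrank K L = p) :
    haveI := isTotallyComplex_of_algebra K L
    InfinitePlace.nrComplexPlaces L = InfinitePlace.nrComplexPlaces K * p := by
  have := isTotallyComplex_of_algebra K L
  have h1 := IsTotallyComplex.finrank (K := K)
  have h2 := IsTotallyComplex.finrank (K := L)
  have h3 := Module.finrank_mul_finrank ℚ K L
  rw [hdeg, h1, h2] at h3
  nlinarith

/-- The fixed part of `Additive (𝓞 L)ˣ` has the rank of `(𝓞 K)ˣ`. -/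
theorem finrank_ker_addAct_sub_one [IsGalois K L] {p : ℕ} (hp : p.Prime)
    (hdeg : finrank K L = p) (σ : L ≃ₐ[K] L) (hσ : σ ≠ 1) :
    finrank ℤ (AddMonoidHom.ker (addAct σ - 1 : AddMonoid.End (Additive (𝓞 L)ˣ))) =
      Units.rank K := by
  rw [← Units.finrank_eq K]
  have hinj : Function.Injective (MonoidHom.toAdditive (baseUnits (K := K) (L := L))) :=
    fun x y h => baseUnits_injective h
  have heq : AddMonoidHom.ker (addAct σ - 1 : AddMonoid.End (Additive (𝓞 L)ˣ)) =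
      AddMonoidHom.range (MonoidHom.toAdditive (baseUnits (K := K) (L := L))) := by
    ext x
    have hk := ker_unitDlt_eq_range hp hdeg σ hσ
    constructor
    · intro hx
      have hx' : unitDlt σ x.toMul = 1 := hx
      have : x.toMul ∈ (baseUnits (K := K) (L := L)).range := by
        rw [← hk]; exact hx'
      obtain ⟨v, hv⟩ := this
      exact ⟨Additive.ofMul v, hv⟩
    · rintro ⟨v, rfl⟩
      have : baseUnits (L := L) v.toMul ∈ (unitDlt σ).ker := by
        rw [hk]; exact ⟨_, rfl⟩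
      exact this
  rw [heq]
  exact (AddMonoidHom.ofInjective hinj).symm.toIntLinearEquiv.finrank_eq

/-- For `σ ≠ 1` in a Galois group of prime order `p`, `∏_{i<p} σ^i x` is the field norm. -/
theorem prod_pow_eq_norm [IsGalois K L] {p : ℕ} (hp : p.Prime)
    (hdeg : finrank K L = p) (σ : L ≃ₐ[K] L) (hσ : σ ≠ 1) (x : L) :
    ∏ i ∈ Finset.range p, (σ ^ i) x = algebraMap K L (Algebra.norm K x) := by
  classical
  have : FiniteDimensional K L := Module.finite_of_finrank_pos (by rw [hdeg]; exact hp.pos)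
  have hcard : Nat.card (L ≃ₐ[K] L) = p := by rw [IsGalois.card_aut_eq_finrank, hdeg]
  have hσp : σ ^ p = 1 := by
    rw [← hcard]; exact pow_card_eq_one'
  have : Fact p.Prime := ⟨hp⟩
  have hord : orderOf σ = p := orderOf_eq_prime hσp hσ
  have hinj : Set.InjOn (fun i : ℕ => σ ^ i) (Finset.range p : Set ℕ) := by
    intro i hi j hj hij
    have hi' : i < orderOf σ := by rw [hord]; exact Finset.mem_range.mp hi
    have hj' : j < orderOf σ := by rw [hord]; exact Finset.mem_range.mp hj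
    exact pow_injOn_Iio_orderOf hi' hj' hij
  have himg : (Finset.range p).image (fun i : ℕ => σ ^ i) = Finset.univ := by
    apply Finset.eq_univ_of_card
    rw [Finset.card_image_of_injOn hinj, Finset.card_range, ← Nat.card_eq_fintype_card, hcard]
  rw [Algebra.norm_eq_prod_automorphisms, ← himg, Finset.prod_image hinj]

theorem coe_coe_unitNrm [IsGalois K L] {p : ℕ} (hp : p.Prime)
    (hdeg : finrank K L = p) (σ : L ≃ₐ[K] L) (hσ : σ ≠ 1) (u : (𝓞 L)ˣ) :
    (((unitNrm σ p u : (𝓞 L)ˣ) : 𝓞 L) : L) =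
      algebraMap K L (Algebra.norm K (((u : (𝓞 L)ˣ) : 𝓞 L) : L)) := by
  rw [← prod_pow_eq_norm hp hdeg σ hσ, unitNrm_apply, Units.coe_prod]
  change algebraMap (𝓞 L) L _ = _
  rw [map_prod]
  exact Finset.prod_congr rfl (fun i _ => coe_coe_unitAct (σ ^ i) u)

omit [NumberField K] [NumberField L] in
theorem unitNrm_unitAct {p : ℕ} (σ : L ≃ₐ[K] L) (hσp : σ ^ p = 1) (u : (𝓞 L)ˣ) :
    unitNrm σ p (unitAct σ u) = unitNrm σ p u := by
  rw [unitNrm_apply, unitNrm_apply]
  have h1 : ∀ i, unitAct (σ ^ i) (unitAct σ u) = unitAct (σ ^ (i + 1)) u := fun i => by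
    rw [pow_succ, unitAct_mul]; rfl
  simp_rw [h1]
  rcases p with _ | k
  · simp
  · rw [Finset.prod_range_succ, Finset.prod_range_succ' (fun i => unitAct (σ ^ i) u), hσp,
      pow_zero]

omit [NumberField K] [NumberField L] in
/-- `N ∘ D = 1`. -/
theorem unitNrm_unitDlt {p : ℕ} (σ : L ≃ₐ[K] L) (hσp : σ ^ p = 1) (u : (𝓞 L)ˣ) :
    unitNrm σ p (unitDlt σ u) = 1 := by
  rw [unitDlt_apply, map_div, unitNrm_unitAct σ hσp, div_self']

omit [NumberField K] [NumberField L] in
/-- `D ∘ N = 1`. -/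
theorem unitDlt_unitNrm {p : ℕ} (σ : L ≃ₐ[K] L) (hσp : σ ^ p = 1) (u : (𝓞 L)ˣ) :
    unitDlt σ (unitNrm σ p u) = 1 := by
  rw [unitDlt_apply, div_eq_one]
  have h : unitAct σ (unitNrm σ p u) = unitNrm σ p (unitAct σ u) := by
    rw [unitNrm_apply, unitNrm_apply, map_prod]
    refine Finset.prod_congr rfl (fun i _ => ?_)
    rw [← MonoidHom.comp_apply, ← MonoidHom.comp_apply, ← unitAct_mul, ← unitAct_mul,
      ← pow_succ, ← pow_succ']
  rw [h, unitNrm_unitAct σ hσp]

theorem pow_finrank_eq_one [IsGalois K L] {p : ℕ} (hp : p.Prime) (hdeg : finrank K L = p)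
    (σ : L ≃ₐ[K] L) : σ ^ p = 1 := by
  have : FiniteDimensional K L := Module.finite_of_finrank_pos (by rw [hdeg]; exact hp.pos)
  have hcard : Nat.card (L ≃ₐ[K] L) = p := by rw [IsGalois.card_aut_eq_finrank, hdeg]
  rw [← hcard]; exact pow_card_eq_one'

omit [NumberField K] [NumberField L] in
/-- `D(U) ≤ U ∩ ker N` for a `σ`-stable `U`: the relative index in `units_herbrand` is the order
of the quotient `H^1(U)`. -/
theorem map_unitDlt_le {p : ℕ} (σ : L ≃ₐ[K] L) (hσp : σ ^ p = 1) (U : Subgroup (𝓞 L)ˣ)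
    (hstab : ∀ u ∈ U, unitAct σ u ∈ U) : U.map (unitDlt σ) ≤ U ⊓ (unitNrm σ p).ker := by
  rintro _ ⟨u, hu, rfl⟩
  exact ⟨U.div_mem (hstab u hu) hu, unitNrm_unitDlt σ hσp u⟩

omit [NumberField K] [NumberField L] in
/-- `N(U) ≤ U ∩ ker D` for a `σ`-stable `U`. -/
theorem map_unitNrm_le {p : ℕ} (σ : L ≃ₐ[K] L) (hσp : σ ^ p = 1) (U : Subgroup (𝓞 L)ˣ)
    (hstab : ∀ u ∈ U, unitAct σ u ∈ U) : U.map (unitNrm σ p) ≤ U ⊓ (unitDlt σ).ker := by
  rintro _ ⟨u, hu, rfl⟩
  refine ⟨?_, unitDlt_unitNrm σ hσp u⟩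
  rw [unitNrm_apply]
  have hall : ∀ i : ℕ, unitAct (σ ^ i) u ∈ U := by
    intro i
    induction i with
    | zero => rw [pow_zero, unitAct_one]; exact hu
    | succ k ih => rw [pow_succ', unitAct_mul]; exact hstab _ ih
  exact U.prod_mem (fun i _ => hall i)

/-- **UH, additive form.** -/
theorem units_herbrand_add [IsGalois K L] {p : ℕ} (hp : p.Prime) (hdeg : finrank K L = p)
    (hK : IsTotallyComplex K) (σ : L ≃ₐ[K] L) (hσ : σ ≠ 1)
    (S : AddSubgroup (Additive (𝓞 L)ˣ)) (hS : ∀ x ∈ S, addAct σ x ∈ S)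
    (m : ℕ) (hm : m ≠ 0) (hmS : ∀ x : Additive (𝓞 L)ˣ, m • x ∈ S) :
    (S.map (addAct σ - 1 : AddMonoid.End (Additive (𝓞 L)ˣ))).relIndex
        (S ⊓ AddMonoidHom.ker
          (∑ i ∈ Finset.range p, addAct σ ^ i : AddMonoid.End (Additive (𝓞 L)ˣ))) ≠ 0 ∧
    (S.map (∑ i ∈ Finset.range p, addAct σ ^ i : AddMonoid.End (Additive (𝓞 L)ˣ))).relIndex
        (S ⊓ AddMonoidHom.ker (addAct σ - 1 : AddMonoid.End (Additive (𝓞 L)ˣ))) ≠ 0 ∧
    (S.map (addAct σ - 1 : AddMonoid.End (Additive (𝓞 L)ˣ))).relIndex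
        (S ⊓ AddMonoidHom.ker
          (∑ i ∈ Finset.range p, addAct σ ^ i : AddMonoid.End (Additive (𝓞 L)ˣ))) =
      p * (S.map (∑ i ∈ Finset.range p, addAct σ ^ i :
          AddMonoid.End (Additive (𝓞 L)ˣ))).relIndex
        (S ⊓ AddMonoidHom.ker (addAct σ - 1 : AddMonoid.End (Additive (𝓞 L)ˣ))) := by
  have : FiniteDimensional K L := Module.finite_of_finrank_pos (by rw [hdeg]; exact hp.pos)
  have hcard : Nat.card (L ≃ₐ[K] L) = p := by rw [IsGalois.card_aut_eq_finrank, hdeg]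
  have hσp : σ ^ p = 1 := by
    rw [← hcard]; exact pow_card_eq_one'
  have hτp : addAct σ ^ p = 1 := by
    rw [addAct_pow, hσp]
    ext x
    simp [addAct_apply, unitAct_one]
  have hLc := isTotallyComplex_of_algebra K L
  have hcK := rank_add_one_of_isTotallyComplex K
  have hcL := rank_add_one_of_isTotallyComplex L
  have hc := nrComplexPlaces_of_finrank (K := K) (L := L) hdeg
  set c := InfinitePlace.nrComplexPlaces K with hcdef
  have hp2 : 2 ≤ p := hp.two_le
  obtain ⟨h1, h2, h3⟩ := herbrand_of_rank_subgroup hp (addAct σ) hτp S hS m hm hmS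
    (Units.rank K) (Units.rank L) (Units.finrank_eq L) (finrank_ker_addAct_sub_one hp hdeg σ hσ)
  refine ⟨h1, h2, ?_⟩
  have hna : (Units.rank L - Units.rank K) / (p - 1) = Units.rank K + 1 := by
    have e1 : Units.rank L - Units.rank K = (p - 1) * c := by
      have : Units.rank L + 1 = c * p := by rw [hcL, hc]
      have hpc : c * p = (p - 1) * c + c := by
        obtain ⟨k, rfl⟩ : ∃ k, p = k + 1 := ⟨p - 1, by omega⟩
        simp only [Nat.add_sub_cancel]; ring
      omega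
    rw [e1, Nat.mul_div_cancel_left _ (by omega : 0 < p - 1), hcK]
  rw [hna, pow_succ] at h3
  have hpa : 0 < p ^ Units.rank K := pow_pos hp.pos _
  refine Nat.eq_of_mul_eq_mul_right hpa ?_
  rw [h3]
  ring

omit [NumberField K] [NumberField L] in
theorem toAddSubgroup_map_unitDlt (σ : L ≃ₐ[K] L) (U : Subgroup (𝓞 L)ˣ) :
    (Subgroup.toAddSubgroup U).map (addAct σ - 1 : AddMonoid.End (Additive (𝓞 L)ˣ)) =
      Subgroup.toAddSubgroup (U.map (unitDlt σ)) := by
  ext x
  constructor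
  · rintro ⟨y, hy, rfl⟩
    exact ⟨y.toMul, hy, rfl⟩
  · rintro ⟨y, hy, hyx⟩
    exact ⟨Additive.ofMul y, hy, congrArg Additive.ofMul hyx⟩

omit [NumberField K] [NumberField L] in
theorem toAddSubgroup_map_unitNrm (σ : L ≃ₐ[K] L) (p : ℕ) (U : Subgroup (𝓞 L)ˣ) :
    (Subgroup.toAddSubgroup U).map
        (∑ i ∈ Finset.range p, addAct σ ^ i : AddMonoid.End (Additive (𝓞 L)ˣ)) =
      Subgroup.toAddSubgroup (U.map (unitNrm σ p)) := by
  ext x
  constructor
  · rintro ⟨y, hy, rfl⟩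
    exact ⟨y.toMul, hy, (addAct_sum_apply σ p y).symm⟩
  · rintro ⟨y, hy, hyx⟩
    exact ⟨Additive.ofMul y, hy, (addAct_sum_apply σ p _).trans (congrArg Additive.ofMul hyx)⟩

omit [NumberField K] [NumberField L] in
theorem toAddSubgroup_inf_ker_unitDlt (σ : L ≃ₐ[K] L) (U : Subgroup (𝓞 L)ˣ) :
    Subgroup.toAddSubgroup U ⊓
        AddMonoidHom.ker (addAct σ - 1 : AddMonoid.End (Additive (𝓞 L)ˣ)) =
      Subgroup.toAddSubgroup (U ⊓ (unitDlt σ).ker) := by
  ext x
  constructor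
  · rintro ⟨hxU, hx⟩
    exact ⟨hxU, (hx : Additive.ofMul (unitDlt σ x.toMul) = 0)⟩
  · rintro ⟨hxU, hx⟩
    exact ⟨hxU, (hx : unitDlt σ x.toMul = 1)⟩

omit [NumberField K] [NumberField L] in
theorem toAddSubgroup_inf_ker_unitNrm (σ : L ≃ₐ[K] L) (p : ℕ) (U : Subgroup (𝓞 L)ˣ) :
    Subgroup.toAddSubgroup U ⊓ AddMonoidHom.ker
        (∑ i ∈ Finset.range p, addAct σ ^ i : AddMonoid.End (Additive (𝓞 L)ˣ)) =
      Subgroup.toAddSubgroup (U ⊓ (unitNrm σ p).ker) := by
  ext x
  constructor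
  · rintro ⟨hxU, hx⟩
    refine ⟨hxU, ?_⟩
    have hx' : (∑ i ∈ Finset.range p, addAct σ ^ i : AddMonoid.End (Additive (𝓞 L)ˣ)) x = 0 := hx
    rw [addAct_sum_apply] at hx'
    exact hx'
  · rintro ⟨hxU, hx⟩
    refine ⟨hxU, ?_⟩
    show (∑ i ∈ Finset.range p, addAct σ ^ i : AddMonoid.End (Additive (𝓞 L)ˣ)) x = 0
    rw [addAct_sum_apply]
    exact (hx : unitNrm σ p x.toMul = 1)

end Units

end UH

open UH in
/-- **Package UH** (units Herbrand quotient `|H^1(U)| = p |H^0(U)|`).  `L/K` Galois of prime degree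
`p`, `K` totally complex, `σ ≠ 1`, `U` a `σ`-stable subgroup of finite index of `(𝓞 L)ˣ`.  No
hypothesis on ramification. -/
theorem units_herbrand {K L : Type*} [Field K] [NumberField K] [Field L] [NumberField L]
    [Algebra K L] [IsGalois K L] {p : ℕ} (hp : p.Prime) (hdeg : finrank K L = p)
    (hK : IsTotallyComplex K) (σ : L ≃ₐ[K] L) (hσ : σ ≠ 1)
    (U : Subgroup (𝓞 L)ˣ) (hU : U.index ≠ 0) (hstab : ∀ u ∈ U, unitAct σ u ∈ U) :
    (U.map (unitDlt σ)).relIndex (U ⊓ (unitNrm σ p).ker) ≠ 0 ∧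
    (U.map (unitNrm σ p)).relIndex (U ⊓ (unitDlt σ).ker) ≠ 0 ∧
    (U.map (unitDlt σ)).relIndex (U ⊓ (unitNrm σ p).ker) =
      p * (U.map (unitNrm σ p)).relIndex (U ⊓ (unitDlt σ).ker) := by
  have hmS : ∀ x : Additive (𝓞 L)ˣ, U.index • x ∈ Subgroup.toAddSubgroup U := fun x =>
    U.pow_index_mem x.toMul
  have := units_herbrand_add hp hdeg hK σ hσ (Subgroup.toAddSubgroup U)
    (fun x hx => hstab x.toMul hx) U.index hU hmS
  rw [toAddSubgroup_map_unitDlt, toAddSubgroup_map_unitNrm, toAddSubgroup_inf_ker_unitDlt,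
    toAddSubgroup_inf_ker_unitNrm, Subgroup.relIndex_toAddSubgroup,
    Subgroup.relIndex_toAddSubgroup] at this
  exact this

end Fermat.Agent.S14
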