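/-
T14 package FI-u (first inequality, unramified cyclic of prime degree): `N_{L/K} Cl(L) ≠ Cl(K)`.

Math (direct "ambiguous class" proof, no general cohomology needed).  `G = Gal(L/K) = ⟨σ⟩`, `|G| = p`.
`C := Cl(L)`.  `|N(C)| ≤ |C/(σ-1)C| = |C^G|`, so it suffices to show `|C^G| ≤ |Cl(K)|/p`.
(i)  `I_L^G = I_K` (unramified) and: `𝔄` with `N𝔄 = 1` is `σ𝔅/𝔅` (prime by prime).
(ii) exact `1 → (I_K P_L)/P_L → C^G → (E_K ∩ N L^×)/N E_L`,  `[𝔄] ↦ N(y)` where `σ𝔄/𝔄 = (y)`
     (kernel computed with Hilbert 90).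
(iii) `[I_K ∩ P_L : P_K] = |H^1(G,E_L)|`  via `(y) ↦ σy/y`  (Hilbert 90 again).
(iv) `|H^1(G,E_L)| = p |H^0(G,E_L)|` (package UH = units + HQ; uses `K` totally complex:
     `rank E_L = p r₂(K) - 1`, `rank E_K = r₂(K) - 1`).
Hence `|C^G| ≤ (|Cl K| / |H^1(E_L)|) * |H^0(E_L)| = |Cl K| / p`.
The same proof with ray class groups mod `∏_{v ∈ R} 𝔓_v` gives FI-tame (needed by SI; its owner fixes
that statement together with the SI sub-lead).
-/
import Fermat.Agent.S14.Defs
import Fermat.Agent.S14.FirstInequality.Separation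
import Fermat.Agent.S14.FirstInequality.Phi

set_option autoImplicit false

open NumberField

namespace Fermat.Agent.S14

theorem normClasses_ne_top (K L : Type*) [Field K] [NumberField K] [Field L] [NumberField L]
    [Algebra K L] {p : ℕ} (hp : p.Prime) [IsGalois K L]
    (hdeg : Module.finrank K L = p) (hK : IsTotallyComplex K)
    (hunr : UnramifiedEverywhere K L) : normClasses K L ≠ ⊤ := by
  have : FiniteDimensional K L := Module.finite_of_finrank_pos (by rw [hdeg]; exact hp.pos)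
  have hcard : Nat.card (L ≃ₐ[K] L) = p := by rw [IsGalois.card_aut_eq_finrank, hdeg]
  obtain ⟨σ, hσ⟩ : ∃ σ : L ≃ₐ[K] L, σ ≠ 1 := by
    have : Nontrivial (L ≃ₐ[K] L) := by
      rw [← Finite.one_lt_card_iff_nontrivial, hcard]
      exact hp.one_lt
    exact exists_ne 1
  exact FI.normClasses_ne_top_of hp hdeg hK hunr σ hσ
    (FI.Phi.h1_le_card_ker hp hdeg hunr σ hσ).2 (FI.psiSep hp hdeg σ hσ)

end Fermat.Agent.S14
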