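/-
T14 package NS (analytic): a proper Galois extension of number fields has a prime of absolute
degree one (outside any given finite set) that does not split completely.

Math.  For a number field `F` put `D_F(s) = ∑_{𝔭, N𝔭 prime} N𝔭^(-s)` (real `s > 1`).
(a) Euler product (or just the two inequalities) for `NumberField.dedekindZeta F`:
    `log ζ_F(s) = ∑_𝔭 -log(1 - N𝔭^(-s))`, hence `|log ζ_F(s) - D_F(s)| ≤ C_F` for `1 < s ≤ 2`
    (primes of degree ≥ 2 and the quadratic terms contribute `≤ 2 [F:ℚ] ∑_q q^(-2)`).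
(b) Mathlib: `NumberField.tendsto_sub_one_mul_dedekindZeta_nhdsGT` gives
    `log ζ_F(s) = log (1/(s-1)) + O(1)`.
(c) If every degree-one prime `𝔭 ∉ B` of `K` (unramified in `L`) had a prime above it with
    `e = f = 1`, it would split completely (Galois), and then
    `D_L(s) ≥ [L:K] * (D_K(s) - |B'|)`; also `D_L(s) ≤ log ζ_L(s) + C`.  With (a),(b) for `K` and `L`:
    `[L:K] * log(1/(s-1)) ≤ log(1/(s-1)) + O(1)`, contradiction as `s → 1+`.
-/
import Fermat.Agent.S14.Defs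
import Fermat.Agent.S14.NonSplit.Assembly

set_option autoImplicit false

open NumberField

namespace Fermat.Agent.S14

theorem exists_prime_not_split (K L : Type*) [Field K] [NumberField K] [Field L] [NumberField L]
    [Algebra K L] [IsGalois K L] (hdeg : 1 < Module.finrank K L)
    (B : Finset (Ideal (𝓞 K))) :
    ∃ 𝔭 : Ideal (𝓞 K), 𝔭.IsPrime ∧ 𝔭 ≠ ⊥ ∧ (Ideal.absNorm 𝔭).Prime ∧ 𝔭 ∉ B ∧
      ∀ P : Ideal (𝓞 L), P.IsPrime → P.under (𝓞 K) = 𝔭 →
        ¬ (P.ramificationIdx (𝓞 K) = 1 ∧ P.inertiaDeg (𝓞 K) = 1) := by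
  by_contra hcon
  refine NonSplit.false_of_forall_split K L B hdeg fun 𝔭 h1 h2 h3 h4 => ?_
  by_contra hP
  refine hcon ⟨𝔭, h1, h2, h3, h4, fun P hP1 hP2 hef => hP ⟨P, hP1, hP2, hef.1, hef.2⟩⟩

end Fermat.Agent.S14
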