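/-
T14 package RED: `ExtVanishingCts p` follows from the Core Arithmetic Theorem.

Math.  `V` of order `p²`, `C = ⟨e₁⟩` fixed line, `G_ℚ` acts on `V/C` by `χ = cycloExp`.  Pick `v₀ ∉ C`:
`σ v₀ = χ(σ) v₀ + c(σ) e₁`.  `c(στ) = c(σ) + χ(σ) c(τ)`... (cocycle), and on `G_K = ker χ`
(`K = ℚ(ζ_p)`) `c` is a homomorphism with `c(σ τ σ⁻¹) = χ(σ)⁻¹ c(τ)`.
Case A: `c|_{G_K} = 0`.  Pick `τ₀` with `χ(τ₀) ≠ 1` (exists as `p ≥ 3`), `t := c(τ₀)/(χ(τ₀)-1)`; then
`C' := span (v₀ + t e₁)`... is `G_ℚ`-stable (`c(σ) = t (χ(σ) - 1)` for all `σ`, from the cocycle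
relation and commutativity of `G_ℚ/G_K`).  Done.
Case B: `c|_{G_K} ≠ 0`.  `ker ρ` is open normal; `L :=` its fixed field (finite Galois over `ℚ`,
`K ⊆ L`, `Gal(L/K) ≅ ρ(G_K)` of order `p`, conjugation action = `CATSetting.act`).
`unramified_outside` + surjectivity of inertia groups (`I_A → I(𝔓|ℓ)`, for valuation subrings `A` of
`ℚ̄` above `𝔓`) give trivial inertia at primes not above `p`; `locally_split` gives
`ρ(D_A ∩ G_K) = 1` (a unipotent matrix preserving a complement of `C` is trivial), hence trivial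
decomposition groups above `p`.  So `CATSetting p L K` holds: contradiction with `cat`.
Useful landed code: `Fermat/Agent/Common_helper32/FrobeniusExists.lean` (integral closure `Zb` of `ℤ` in `ℚ̄`,
`centerIdeal A`, `Algebra.IsInvariant ℤ Zb G_ℚ`, continuity), `Fermat/Agent/S05/Inertia.lean`.
-/
import Fermat.Agent.S14.Defs
import Fermat.Prelude.Def_ExtCitation_AdmissibleExtension_v2
import Fermat.Agent.S14.Reduction.FixedField
import Fermat.Agent.S14.Reduction.Above
import Fermat.Agent.S13.GlobalLift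

set_option autoImplicit false
set_option linter.style.haveILetI false

open NumberField

namespace Fermat.Agent.S14

/-- The local input (RED-c) for a finite Galois subfield of `ℚ̄`: `Reduction/Above.lean` (valuation
subrings above primes) and `S13/GlobalLift.lean` (decomposition / inertia lifting, helper59). -/
theorem Reduction.localInput (L : IntermediateField ℚ (AlgebraicClosure ℚ))
    [FiniteDimensional ℚ L] [IsGalois ℚ L] : Reduction.LocalInput L where
  exists_val P hP hP0 := by
    haveI := hP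
    exact Reduction.exists_valuationSubring_above L P hP0
  lift_dec A P hP hP0 hAP τ hτ := by
    haveI := hP
    obtain ⟨ℓ, hℓ, hℓP⟩ := Reduction.exists_prime_mem P hP0
    obtain ⟨σ, hσ, hres⟩ := Fermat.Agent.S13.GlobalLift.exists_mem_decomposition_of_stabilizes L A ℓ hℓ
      (Reduction.liesOverPrime_of_mem hAP hℓP) P hAP τ hτ
    refine ⟨σ, hσ, fun x => ?_⟩
    rw [← hres]
    exact (Reduction.res_apply_coe L σ x).symm
  lift_inertia A P hP hP0 hAP τ hτ := by
    haveI := hP
    obtain ⟨ℓ, hℓ, hℓP⟩ := Reduction.exists_prime_mem P hP0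
    obtain ⟨σ, hσ, hres⟩ := Fermat.Agent.S13.GlobalLift.exists_mem_inertia_of_inert L A ℓ hℓ
      (Reduction.liesOverPrime_of_mem hAP hℓP) P hAP τ hτ
    refine ⟨σ, hσ, fun x => ?_⟩
    rw [← hres]
    exact (Reduction.res_apply_coe L σ x).symm

theorem extVanishingCts_of_cat {p : ℕ} [Fact p.Prime] (h3 : 3 ≤ p)
    (hcat : ∀ (L : Type) [Field L] [NumberField L] (K : IntermediateField ℚ L),
      CATSetting p L K → False) :
    ExtCitation.ExtVanishingCts p := by
  intro V _ _ _ _ C hadm
  haveI := Reduction.finiteDimensional_fixedL hadm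
  haveI := Reduction.isGalois_fixedL hadm
  exact Reduction.splitsGlobally_of_localInput h3 hcat hadm (Reduction.localInput (Reduction.fixedL V))

end Fermat.Agent.S14
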