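/-
T14 package JS, abstract part (Mathlib only).

Setting: `R` a domain, `F` a finite field, `π : R →+* F` a ring hom, `ζ : R` a primitive `p`-th root
of unity (`p` prime) and `(p : F) ≠ 0`.  We construct the "power residue" character
`χ : MulChar F R` with `π (χ x) = x ^ ((#F - 1) / p)` and prove the three facts on the Jacobi sums
`J(χ^a, χ^b)` that are needed for Stickelberger's relation for `J(χ, χ)`.
-/
import Mathlib

set_option autoImplicit false

open Polynomial Finset

namespace Fermat.Agent.S14.Jacobi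

section FiniteField

variable {F : Type*} [Field F] [Fintype F]

/-- The sum over a finite field of the values of a polynomial of degree `< #F - 1` vanishes. -/
theorem sum_eval_eq_zero (f : F[X]) (h : f.natDegree < Fintype.card F - 1) :
    ∑ x : F, f.eval x = 0 := by
  simp_rw [Polynomial.eval_eq_sum_range]
  rw [Finset.sum_comm]
  refine Finset.sum_eq_zero fun i hi => ?_
  have hi' : i < Fintype.card F - 1 := by
    have := Finset.mem_range.mp hi
    omega
  rw [← Finset.mul_sum, FiniteField.sum_pow_lt_card_sub_one F i hi', mul_zero]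

theorem sum_pow_mul_one_sub_pow (m n : ℕ) (h : m + n < Fintype.card F - 1) :
    ∑ x : F, x ^ m * (1 - x) ^ n = 0 := by
  have hdeg : (X ^ m * (1 - X) ^ n : F[X]).natDegree < Fintype.card F - 1 := by
    refine lt_of_le_of_lt ?_ h
    refine natDegree_mul_le.trans (add_le_add (natDegree_X_pow_le m) ?_)
    refine natDegree_pow_le.trans ?_
    have : (1 - X : F[X]).natDegree ≤ 1 := by
      refine (natDegree_sub_le _ _).trans ?_
      simp
    calc n * (1 - X : F[X]).natDegree ≤ n * 1 := Nat.mul_le_mul_left n this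
      _ = n := mul_one n
  have := sum_eval_eq_zero (X ^ m * (1 - X) ^ n : F[X]) hdeg
  simpa using this

end FiniteField

section Abstract

variable {R F : Type*} [CommRing R] [IsDomain R] [Field F] [Fintype F] (π : R →+* F)
  {p : ℕ} [hp : Fact p.Prime] {ζ : R} (hζ : IsPrimitiveRoot ζ p) (hpF : (p : F) ≠ 0)

omit [Fintype F] in
include hζ hpF in
theorem isPrimitiveRoot_map : IsPrimitiveRoot (π ζ) p := by
  have h1 : (π ζ) ^ p = 1 := by rw [← map_pow, hζ.pow_eq_one, map_one]
  have h2 : π ζ ≠ 1 := by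
    intro h
    have h0 := congrArg π (hζ.geom_sum_eq_zero hp.out.one_lt)
    rw [map_sum, map_zero] at h0
    simp only [map_pow, h, one_pow, Finset.sum_const, Finset.card_range, nsmul_eq_mul,
      mul_one] at h0
    exact hpF h0
  exact IsPrimitiveRoot.iff_orderOf.mpr (orderOf_eq_prime h1 h2)

include π hζ hpF in
theorem dvd_card_sub_one : p ∣ Fintype.card F - 1 := by
  have hprim := isPrimitiveRoot_map π hζ hpF
  refine hprim.dvd_of_pow_eq_one _ (FiniteField.pow_card_sub_one_eq_one _ ?_)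
  intro h0
  have := hprim.pow_eq_one
  rw [h0, zero_pow hp.out.ne_zero] at this
  exact zero_ne_one this

/-- the exponent `k = (#F - 1) / p`. -/
def kexp (F : Type*) [Fintype F] (p : ℕ) : ℕ := (Fintype.card F - 1) / p

include π hζ hpF in
theorem kexp_mul : kexp F p * p = Fintype.card F - 1 :=
  Nat.div_mul_cancel (dvd_card_sub_one π hζ hpF)

include π hζ hpF in
theorem kexp_pos : 0 < kexp F p := by
  have h := kexp_mul π hζ hpF
  have hc : 1 < Fintype.card F := Fintype.one_lt_card
  rcases Nat.eq_zero_or_pos (kexp F p) with h0 | h0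
  · rw [h0, zero_mul] at h
    omega
  · exact h0

omit [Fintype F] in
include hζ hpF in
theorem restrict_injective : Function.Injective (restrictRootsOfUnity π p) := by
  rw [injective_iff_map_eq_one]
  intro u hu
  have hup : ((u : Rˣ) : R) ^ p = 1 := by
    have := (mem_rootsOfUnity p (u : Rˣ)).mp u.2
    rw [← Units.val_pow_eq_pow_val, this, Units.val_one]
  obtain ⟨i, hi, hiu⟩ := hζ.eq_pow_of_pow_eq_one hup
  have h1 : (π ζ) ^ i = 1 := by
    rw [← map_pow, hiu, ← restrictRootsOfUnity_coe_apply, hu]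
    simp
  have hdvd := (isPrimitiveRoot_map π hζ hpF).dvd_of_pow_eq_one i h1
  have hi0 : i = 0 := Nat.eq_zero_of_dvd_of_lt hdvd hi
  rw [hi0, pow_zero] at hiu
  ext
  simpa using hiu.symm

include hζ hpF in
theorem restrict_bijective : Function.Bijective (restrictRootsOfUnity π p) := by
  refine (restrict_injective π hζ hpF).bijective_of_nat_card_le ?_
  rw [hζ.card_rootsOfUnity]
  exact card_rootsOfUnity F p

/-- reduction of `p`-th roots of unity is an isomorphism. -/
noncomputable def redEquiv : rootsOfUnity p R ≃* rootsOfUnity p F :=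
  MulEquiv.ofBijective (restrictRootsOfUnity π p) (restrict_bijective π hζ hpF)

/-- `x ↦ x ^ k` as a hom `Fˣ → μ_p(F)`. -/
noncomputable def powHom : Fˣ →* rootsOfUnity p F :=
  (powMonoidHom (kexp F p) : Fˣ →* Fˣ).codRestrict (rootsOfUnity p F) (fun x => by
    classical
    rw [mem_rootsOfUnity, powMonoidHom_apply, ← pow_mul, kexp_mul π hζ hpF,
      ← Fintype.card_units]
    exact pow_card_eq_one)

/-- the unit-valued power residue hom. -/
noncomputable def chiU : Fˣ →* Rˣ :=
  (rootsOfUnity p R).subtype.comp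
    ((redEquiv π hζ hpF).symm.toMonoidHom.comp (powHom π hζ hpF))

/-- the power residue character. -/
noncomputable def chi : MulChar F R := MulChar.ofUnitHom (chiU π hζ hpF)

theorem chi_coe (x : Fˣ) : chi π hζ hpF (x : F) = ((chiU π hζ hpF x : Rˣ) : R) :=
  MulChar.ofUnitHom_coe _ x

theorem map_chi_coe (x : Fˣ) : π (chi π hζ hpF (x : F)) = (x : F) ^ kexp F p := by
  rw [chi_coe]
  set y : rootsOfUnity p R := (redEquiv π hζ hpF).symm (powHom π hζ hpF x) with hy
  have h1 : ((chiU π hζ hpF x : Rˣ) : R) = ((y : Rˣ) : R) := rfl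
  rw [h1, ← restrictRootsOfUnity_coe_apply]
  have h2 : restrictRootsOfUnity π p y = powHom π hζ hpF x := by
    have := (redEquiv π hζ hpF).apply_symm_apply (powHom π hζ hpF x)
    exact this
  rw [h2]
  simp [powHom]

theorem map_chi (x : F) : π (chi π hζ hpF x) = x ^ kexp F p := by
  by_cases hx : IsUnit x
  · obtain ⟨u, rfl⟩ := hx
    exact map_chi_coe π hζ hpF u
  · rw [MulChar.map_nonunit _ hx, map_zero]
    have hx0 : x = 0 := by
      by_contra h
      exact hx (isUnit_iff_ne_zero.mpr h)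
    rw [hx0, zero_pow (kexp_pos π hζ hpF).ne']

theorem chi_coe_pow (x : Fˣ) : (chi π hζ hpF (x : F)) ^ p = 1 := by
  rw [chi_coe]
  set y : rootsOfUnity p R := (redEquiv π hζ hpF).symm (powHom π hζ hpF x) with hy
  have h1 : ((chiU π hζ hpF x : Rˣ) : R) = ((y : Rˣ) : R) := rfl
  rw [h1, ← Units.val_pow_eq_pow_val, (mem_rootsOfUnity p (y : Rˣ)).mp y.2, Units.val_one]

theorem chi_pow_eq_one : (chi π hζ hpF) ^ p = 1 := by
  rw [MulChar.eq_one_iff]
  intro a
  rw [MulChar.pow_apply_coe, chi_coe_pow]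

/-- every value of `χ` is `0` or a power of `ζ`. -/
theorem chi_apply_eq (x : F) : chi π hζ hpF x = 0 ∨ ∃ i : ℕ, chi π hζ hpF x = ζ ^ i := by
  by_cases hx : IsUnit x
  · obtain ⟨u, rfl⟩ := hx
    obtain ⟨i, _, hi⟩ := hζ.eq_pow_of_pow_eq_one (chi_coe_pow π hζ hpF u)
    exact Or.inr ⟨i, hi.symm⟩
  · exact Or.inl (MulChar.map_nonunit _ hx)

/-- **(1)** `J(χ^a, χ^b) ≡ 0 mod ker π` for `1 ≤ a, b`, `a + b < p`. -/
theorem map_jacobiSum_eq_zero {a b : ℕ} (ha : 0 < a) (hb : 0 < b) (hab : a + b < p) :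
    π (jacobiSum ((chi π hζ hpF) ^ a) ((chi π hζ hpF) ^ b)) = 0 := by
  rw [jacobiSum, map_sum]
  have : ∀ x : F, π (((chi π hζ hpF) ^ a) x * ((chi π hζ hpF) ^ b) (1 - x)) =
      x ^ (kexp F p * a) * (1 - x) ^ (kexp F p * b) := by
    intro x
    rw [map_mul, MulChar.pow_apply' _ ha.ne', MulChar.pow_apply' _ hb.ne', map_pow, map_pow,
      map_chi, map_chi, ← pow_mul, ← pow_mul]
  simp_rw [this]
  apply sum_pow_mul_one_sub_pow
  rw [← mul_add, ← kexp_mul π hζ hpF]
  exact Nat.mul_lt_mul_of_pos_left hab (kexp_pos π hζ hpF)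

/-- **(2)** a ring endomorphism `τ` with `τ ζ = ζ ^ n` maps `J(χ, χ)` to `J(χ^n, χ^n)`. -/
theorem map_jacobiSum_of_map_zeta (τ : R →+* R) {n : ℕ} (hn : 0 < n) (hτ : τ ζ = ζ ^ n) :
    τ (jacobiSum (chi π hζ hpF) (chi π hζ hpF)) =
      jacobiSum ((chi π hζ hpF) ^ n) ((chi π hζ hpF) ^ n) := by
  have h : (chi π hζ hpF).ringHomComp τ = (chi π hζ hpF) ^ n := by
    apply MulChar.ext'
    intro x
    rw [MulChar.ringHomComp_apply, MulChar.pow_apply' _ hn.ne']
    rcases chi_apply_eq π hζ hpF x with h0 | ⟨i, hi⟩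
    · rw [h0, map_zero, zero_pow hn.ne']
    · rw [hi, map_pow, hτ, ← pow_mul, ← pow_mul, mul_comm]
  rw [← jacobiSum_ringHomComp, h]

/-- `χ ^ n ≠ 1` for `0 < n < p`. -/
theorem chi_pow_ne_one {n : ℕ} (hn : 0 < n) (hnp : n < p) : (chi π hζ hpF) ^ n ≠ 1 := by
  classical
  intro h
  have hk := kexp_mul π hζ hpF
  have hkpos := kexp_pos π hζ hpF
  have hlt : kexp F p * n < Nat.card Fˣ := by
    rw [Nat.card_eq_fintype_card, Fintype.card_units, ← hk]
    exact Nat.mul_lt_mul_of_pos_left hnp hkpos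
  obtain ⟨a, ha⟩ := exists_pow_ne_one_of_isCyclic (G := Fˣ)
    (Nat.mul_ne_zero hkpos.ne' hn.ne') hlt
  apply ha
  have h1 := (MulChar.eq_one_iff.mp h) a
  rw [MulChar.pow_apply_coe] at h1
  have h2 := congrArg π h1
  rw [map_pow, map_chi_coe, map_one, ← pow_mul] at h2
  ext
  simpa using h2

/-- **(3)** `J(χ,χ) * J(χ^(p-1),χ^(p-1)) = #F`, provided `R` embeds into a field of a
characteristic different from that of `F` and `p ≠ 2`. -/
theorem jacobiSum_mul_conj {K : Type*} [Field K] (ι : R →+* K) (hι : Function.Injective ι)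
    (hchar : ringChar K ≠ ringChar F) (hp2 : p ≠ 2) :
    jacobiSum (chi π hζ hpF) (chi π hζ hpF) *
      jacobiSum ((chi π hζ hpF) ^ (p - 1)) ((chi π hζ hpF) ^ (p - 1)) = (Fintype.card F : R) := by
  set χ := chi π hζ hpF with hχ
  have hp3 : 2 < p := lt_of_le_of_ne hp.out.two_le (Ne.symm hp2)
  have h1 : χ ≠ 1 := by
    have := chi_pow_ne_one π hζ hpF (n := 1) one_pos hp.out.one_lt
    rwa [pow_one] at this
  have h2 : χ * χ ≠ 1 := by
    have := chi_pow_ne_one π hζ hpF (n := 2) two_pos hp3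
    rwa [pow_two] at this
  have hinv : χ⁻¹ = χ ^ (p - 1) := by
    symm
    apply eq_inv_of_mul_eq_one_left
    rw [← pow_succ, Nat.sub_add_cancel hp.out.one_le]
    exact chi_pow_eq_one π hζ hpF
  have key := jacobiSum_mul_jacobiSum_inv hchar
    ((MulChar.ringHomComp_ne_one_iff hι).mpr h1) ((MulChar.ringHomComp_ne_one_iff hι).mpr h1)
    (by rw [← MulChar.ringHomComp_mul]; exact (MulChar.ringHomComp_ne_one_iff hι).mpr h2)
  rw [MulChar.ringHomComp_inv, hinv, jacobiSum_ringHomComp, jacobiSum_ringHomComp,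
    ← map_mul] at key
  apply hι
  rw [key, map_natCast]

end Abstract

end Fermat.Agent.S14.Jacobi
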