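/-
T14 package JS, number field part: general lemmas on the Galois action on ideals of `𝓞 K`.
-/
import Fermat.Agent.S14.JacobiAux

set_option autoImplicit false

open NumberField
open scoped Pointwise

namespace Fermat.Agent.S14.Jacobi

variable {K : Type*} [Field K] [NumberField K]

theorem coe_galSmul (g : K ≃ₐ[ℚ] K) (x : 𝓞 K) : ((g • x : 𝓞 K) : K) = g (x : K) := rfl

theorem absNorm_galSmul (g : K ≃ₐ[ℚ] K) (I : Ideal (𝓞 K)) :
    Ideal.absNorm (g • I) = Ideal.absNorm I := by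
  have e := Ideal.quotientEquiv I (g • I)
    (MulSemiringAction.toRingEquiv (K ≃ₐ[ℚ] K) (𝓞 K) g) (by
      rw [Ideal.pointwise_smul_def]; rfl)
  rw [Ideal.absNorm_apply, Ideal.absNorm_apply, Submodule.cardQuot_apply,
    Submodule.cardQuot_apply]
  exact (Nat.card_congr e.toEquiv).symm

theorem galSmul_span_singleton (g : K ≃ₐ[ℚ] K) (x : 𝓞 K) :
    g • Ideal.span {x} = Ideal.span {g • x} := by
  rw [Ideal.pointwise_smul_def, Ideal.map_span, Set.image_singleton]
  rfl

theorem absNorm_span_galSmul (g : K ≃ₐ[ℚ] K) (x : 𝓞 K) :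
    Ideal.absNorm (Ideal.span {g • x}) = Ideal.absNorm (Ideal.span {x}) := by
  rw [← galSmul_span_singleton, absNorm_galSmul]

/-- an ideal of prime norm is maximal. -/
theorem isMaximal_of_absNorm_prime {I : Ideal (𝓞 K)} {q : ℕ} (hq : q.Prime)
    (hN : Ideal.absNorm I = q) : I.IsMaximal := by
  have hprime : I.IsPrime := Ideal.isPrime_of_irreducible_absNorm (by
    rw [hN]; exact hq.prime.irreducible)
  refine hprime.isMaximal ?_
  rintro rfl
  rw [Ideal.absNorm_bot] at hN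
  exact hq.ne_zero hN.symm

/-- modulo an ideal of prime norm every integer of `K` is congruent to a rational integer. -/
theorem exists_int_sub_mem {I : Ideal (𝓞 K)} {q : ℕ} (hq : q.Prime)
    (hN : Ideal.absNorm I = q) (x : 𝓞 K) : ∃ n : ℤ, x - (n : 𝓞 K) ∈ I := by
  haveI : Fact q.Prime := ⟨hq⟩
  have hcard : Nat.card (𝓞 K ⧸ I) = q := by
    rw [← hN, Ideal.absNorm_apply, Submodule.cardQuot_apply]
  haveI : I.IsMaximal := isMaximal_of_absNorm_prime hq hN
  haveI : Nontrivial (𝓞 K ⧸ I) := Ideal.Quotient.nontrivial_iff.mpr (Ideal.IsMaximal.ne_top ‹_›)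
  have htop := zmultiples_eq_top_of_prime_card (G := 𝓞 K ⧸ I) hcard (g := 1) one_ne_zero
  have hx : Ideal.Quotient.mk I x ∈ AddSubgroup.zmultiples (1 : 𝓞 K ⧸ I) := by
    rw [htop]; trivial
  obtain ⟨n, hn⟩ := AddSubgroup.mem_zmultiples_iff.mp hx
  refine ⟨n, ?_⟩
  rw [← Ideal.Quotient.eq, ← hn]
  simp

end Fermat.Agent.S14.Jacobi
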