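/-
T14 package JS (Stickelberger for the Jacobi sum `J(χ,χ)`, degree-one primes only).

Math.  `K = ℚ(ζ_p)`, `𝔮` a prime of `𝓞 K` of norm a rational prime `q ≠ p` (so `q ≡ 1 mod p`,
`𝓞 K / 𝔮 = 𝔽_q`).  Let `χ : 𝔽_q^× → μ_p(K)` be the character with `χ(x) ≡ x^((q-1)/p) mod 𝔮`
and `J = ∑_{x ∈ 𝔽_q} χ(x) χ(1-x) ∈ 𝓞 K` (Mathlib `jacobiSum`).
(1) For `1 ≤ a, b`, `a + b < p`:  `J(χ^a,χ^b) ≡ ∑_x x^(ak) (1-x)^(bk) ≡ 0 mod 𝔮`  (`k = (q-1)/p`;
    a polynomial of degree `< q-1`; Mathlib `FiniteField.sum_pow_lt_card_sub_one`).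
(2) `σ_t J(χ,χ) = J(χ^t,χ^t)`, so `J ∈ σ_t⁻¹ 𝔮` for `1 ≤ t ≤ (p-1)/2`.
(3) `J * conj J = q` (Mathlib `jacobiSum_mul_jacobiSum_inv`); the primes `σ_t⁻¹ 𝔮`,
    `1 ≤ t ≤ (p-1)/2`, are pairwise distinct, so their product `𝔞` divides `(J)`; both have
    absolute norm `q^((p-1)/2)` (as `conj J` is a Galois conjugate of `J`), hence `(J) = 𝔞`.
The abstract character theory is in `JacobiAux.lean`, the Galois action on ideals in
`JacobiAux2.lean`.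
-/
import Fermat.Agent.S14.Defs
import Fermat.Agent.S14.JacobiAux2

set_option autoImplicit false
set_option linter.style.haveILetI false

open NumberField

namespace Fermat.Agent.S14

open scoped Pointwise in
theorem stickelberger_half_principal {p : ℕ} (hp : p.Prime) (hp2 : p ≠ 2)
    (K : Type*) [Field K] [NumberField K] [IsCyclotomicExtension {p} ℚ K]
    (𝔮 : Ideal (𝓞 K)) [𝔮.IsPrime] (q : ℕ) (hq : q.Prime) (hqp : q ≠ p)
    (hN : Ideal.absNorm 𝔮 = q)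
    (ζ : K) (hζ : IsPrimitiveRoot ζ p) (σ : ℕ → (K ≃ₐ[ℚ] K))
    (hσ : ∀ t ∈ Finset.Icc 1 ((p - 1) / 2), σ t ζ = ζ ^ t) :
    ∃ J : 𝓞 K, J ≠ 0 ∧
      Ideal.span {J} = ∏ t ∈ Finset.Icc 1 ((p - 1) / 2), ((σ t)⁻¹ • 𝔮) := by
  classical
  haveI : Fact p.Prime := ⟨hp⟩
  haveI : Fact q.Prime := ⟨hq⟩
  haveI hmax : 𝔮.IsMaximal := Jacobi.isMaximal_of_absNorm_prime hq hN
  letI : Field (𝓞 K ⧸ 𝔮) := Ideal.Quotient.field 𝔮
  have hbot : 𝔮 ≠ ⊥ := by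
    rintro rfl
    rw [Ideal.absNorm_bot] at hN
    exact hq.ne_zero hN.symm
  haveI : Finite (𝓞 K ⧸ 𝔮) := Ideal.finiteQuotientOfFreeOfNeBot 𝔮 hbot
  letI : Fintype (𝓞 K ⧸ 𝔮) := Fintype.ofFinite _
  have hcard : Fintype.card (𝓞 K ⧸ 𝔮) = q := by
    rw [← Nat.card_eq_fintype_card, ← hN, Ideal.absNorm_apply, Submodule.cardQuot_apply]
  set π : 𝓞 K →+* (𝓞 K ⧸ 𝔮) := Ideal.Quotient.mk 𝔮 with hπ
  set ζ' : 𝓞 K := hζ.toInteger with hζ'
  have hζ'prim : IsPrimitiveRoot ζ' p := hζ.toInteger_isPrimitiveRoot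
  have hζ'K : (ζ' : K) = ζ := hζ.coe_toInteger
  have hpF : ((p : ℕ) : 𝓞 K ⧸ 𝔮) ≠ 0 := by
    intro h0
    have hq0 : ((q : ℕ) : 𝓞 K ⧸ 𝔮) = 0 := by
      rw [← hcard]
      exact Nat.cast_card_eq_zero _
    have hcop : IsCoprime (p : ℤ) (q : ℤ) :=
      Nat.isCoprime_iff_coprime.mpr ((Nat.coprime_primes hp hq).mpr hqp.symm)
    obtain ⟨u, v, huv⟩ := hcop
    have := congrArg (Int.cast : ℤ → 𝓞 K ⧸ 𝔮) huv
    push_cast at this
    rw [h0, hq0, mul_zero, mul_zero, add_zero] at this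
    exact zero_ne_one this
  set χ := Jacobi.chi π hζ'prim hpF with hχ
  set J := jacobiSum χ χ with hJ
  set J' := jacobiSum (χ ^ (p - 1)) (χ ^ (p - 1)) with hJ'
  have hchar : ringChar K ≠ ringChar (𝓞 K ⧸ 𝔮) := by
    rw [ringChar.eq_zero]
    exact (CharP.ringChar_ne_zero_of_finite _).symm
  have hJJ' : J * J' = (q : 𝓞 K) := by
    have := Jacobi.jacobiSum_mul_conj π hζ'prim hpF (algebraMap (𝓞 K) K)
      RingOfIntegers.coe_injective hchar hp2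
    rw [hcard] at this
    exact this
  have hJ0 : J ≠ 0 := by
    intro h
    rw [h, zero_mul] at hJJ'
    exact (Nat.cast_ne_zero.mpr hq.ne_zero) hJJ'.symm
  refine ⟨J, hJ0, ?_⟩
  set h := (p - 1) / 2 with hh
  have h2h : 2 * h = p - 1 := by
    rcases hp.eq_two_or_odd' with h2 | hodd
    · exact absurd h2 hp2
    · obtain ⟨m, hm⟩ := hodd
      omega
  have hp1 : 1 ≤ p := hp.one_le
  -- the ring endomorphisms induced by the `σ t`
  set τ : (K ≃ₐ[ℚ] K) → (𝓞 K →+* 𝓞 K) :=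
    fun g => MulSemiringAction.toRingHom (K ≃ₐ[ℚ] K) (𝓞 K) g with hτdef
  have hτmem : ∀ (g : K ≃ₐ[ℚ] K) (x : 𝓞 K), x ∈ g⁻¹ • 𝔮 ↔ τ g x ∈ 𝔮 := by
    intro g x
    rw [Ideal.mem_inv_pointwise_smul_iff]
    rfl
  have hτζ : ∀ (g : K ≃ₐ[ℚ] K) (n : ℕ), g ζ = ζ ^ n → τ g ζ' = ζ' ^ n := by
    intro g n hg
    apply RingOfIntegers.ext
    show g (ζ' : K) = ((ζ' ^ n : 𝓞 K) : K)
    rw [show ((ζ' ^ n : 𝓞 K) : K) = (ζ' : K) ^ n from map_pow (algebraMap (𝓞 K) K) ζ' n,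
      hζ'K, hg]
  have hmem : ∀ t ∈ Finset.Icc 1 h, J ∈ (σ t)⁻¹ • 𝔮 := by
    intro t ht
    rw [hτmem]
    have ht1 := Finset.mem_Icc.mp ht
    have h1 := Jacobi.map_jacobiSum_of_map_zeta π hζ'prim hpF (τ (σ t)) (by omega : 0 < t)
      (hτζ _ _ (hσ t ht))
    have h0 := Jacobi.map_jacobiSum_eq_zero π hζ'prim hpF (a := t) (b := t)
      (by omega) (by omega) (by omega)
    rw [← h1] at h0
    exact Ideal.Quotient.eq_zero_iff_mem.mp h0
  have hNt : ∀ g : K ≃ₐ[ℚ] K, Ideal.absNorm (g⁻¹ • 𝔮) = q := by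
    intro g
    rw [Jacobi.absNorm_galSmul, hN]
  have hmaxt : ∀ g : K ≃ₐ[ℚ] K, (g⁻¹ • 𝔮).IsMaximal :=
    fun g => Jacobi.isMaximal_of_absNorm_prime hq (hNt g)
  have hne : ∀ s ∈ Finset.Icc 1 h, ∀ t ∈ Finset.Icc 1 h, s ≠ t →
      (σ s)⁻¹ • 𝔮 ≠ (σ t)⁻¹ • 𝔮 := by
    intro s hs t ht hst heq
    have hs1 := Finset.mem_Icc.mp hs
    have ht1 := Finset.mem_Icc.mp ht
    obtain ⟨n, hn⟩ := Jacobi.exists_int_sub_mem hq (hNt (σ s)) ζ'
    have hn' := hn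
    rw [heq] at hn'
    rw [hτmem, map_sub, map_intCast, hτζ _ _ (hσ s hs)] at hn
    rw [hτmem, map_sub, map_intCast, hτζ _ _ (hσ t ht)] at hn'
    have hsub : ζ' ^ s - ζ' ^ t ∈ 𝔮 := by
      have := 𝔮.sub_mem hn hn'
      rwa [sub_sub_sub_cancel_right] at this
    have hπeq : (π ζ') ^ s = (π ζ') ^ t := by
      rw [← map_pow, ← map_pow, hπ, Ideal.Quotient.eq]
      exact hsub
    exact hst ((Jacobi.isPrimitiveRoot_map π hζ'prim hpF).pow_inj (by omega) (by omega) hπeq)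
  -- complex conjugation
  have hirr : Irreducible (Polynomial.cyclotomic p ℚ) :=
    Polynomial.cyclotomic.irreducible_rat hp.pos
  obtain ⟨g, hg⟩ : ∃ g : K ≃ₐ[ℚ] K, g ζ = ζ ^ (p - 1) := by
    have hz := IsCyclotomicExtension.zeta_spec p ℚ K
    have hcop : (p - 1).Coprime p := by
      refine ((Nat.Prime.coprime_iff_not_dvd hp).mpr ?_).symm
      exact Nat.not_dvd_of_pos_of_lt (by have := hp.two_le; omega) (by omega)
    have hμ : IsPrimitiveRoot ((IsCyclotomicExtension.zeta p ℚ K) ^ (p - 1)) p :=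
      hz.pow_of_coprime _ hcop
    obtain ⟨i, _, hi⟩ := hz.eq_pow_of_pow_eq_one hζ.pow_eq_one
    refine ⟨IsCyclotomicExtension.fromZetaAut hμ hirr, ?_⟩
    rw [← hi, map_pow, IsCyclotomicExtension.fromZetaAut_spec, ← pow_mul, ← pow_mul, mul_comm]
  have hJ'eq : J' = g • J := by
    have := Jacobi.map_jacobiSum_of_map_zeta π hζ'prim hpF (τ g)
      (by have := hp.two_le; omega : 0 < p - 1) (hτζ g _ hg)
    exact this.symm
  have hNJ : Ideal.absNorm (Ideal.span {J}) = q ^ h := by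
    have h1 : Ideal.absNorm (Ideal.span {J'}) = Ideal.absNorm (Ideal.span {J}) := by
      rw [hJ'eq, Jacobi.absNorm_span_galSmul]
    have h2 : Ideal.absNorm (Ideal.span {J}) * Ideal.absNorm (Ideal.span {J'}) =
        q ^ (p - 1) := by
      rw [← map_mul, Ideal.span_singleton_mul_span_singleton, hJJ', Ideal.absNorm_span_natCast,
        RingOfIntegers.rank, IsCyclotomicExtension.finrank K hirr, Nat.totient_prime hp]
    rw [h1, ← sq, ← h2h, pow_mul'] at h2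
    exact Nat.pow_left_injective two_ne_zero h2
  set 𝔞 := ∏ t ∈ Finset.Icc 1 h, ((σ t)⁻¹ • 𝔮) with h𝔞
  have hdvd : 𝔞 ∣ Ideal.span {J} := by
    apply Finset.prod_dvd_of_coprime
    · intro s hs t ht hst
      rw [Function.onFun, Ideal.isCoprime_iff_sup_eq]
      exact Ideal.IsMaximal.coprime_of_ne (hmaxt _) (hmaxt _) (hne s hs t ht hst)
    · intro t ht
      rw [Ideal.dvd_iff_le, Ideal.span_singleton_le_iff_mem]
      exact hmem t ht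
  obtain ⟨𝔠, h𝔠⟩ := hdvd
  have hN𝔞 : Ideal.absNorm 𝔞 = q ^ h := by
    rw [h𝔞, map_prod, Finset.prod_congr rfl (fun t _ => hNt (σ t)), Finset.prod_const,
      Nat.card_Icc]
    simp
  have hN𝔠 : Ideal.absNorm 𝔠 = 1 := by
    have := congrArg Ideal.absNorm h𝔠
    rw [map_mul, hNJ, hN𝔞] at this
    have hpos : 0 < q ^ h := pow_pos hq.pos h
    exact (Nat.eq_of_mul_eq_mul_left hpos (by rw [mul_one]; exact this)).symm
  rw [Ideal.absNorm_eq_one_iff] at hN𝔠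
  rw [h𝔠, hN𝔠, Ideal.mul_top]

end Fermat.Agent.S14
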