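/-
T14 package SI-u (second inequality for an unramified Kummer extension of prime degree):
`[Cl(K) : N_{L/K} Cl(L)] ≤ p` when `μ_p ⊆ K`, `[L:K] = p`, `L/K` unramified.

Math (finite-level version of the classical idelic proof; see board topic T14 for details).
`L = K(α^(1/p))`.  `S` = finite set of primes of `K` containing all `v ∣ p`, all `v` with `v(α) ≠ 0`
and generators of `Cl(K)`;  `s := |S| + r₂(K)`;  `U_S/U_S^p ≅ (ℤ/p)^s`.
For `v ∈ S`:  `K_{v,p} := {x ∈ K^× : p ∣ v(x) ∧ ∃ y, v(x y^(-p) - 1) ≥ N_v}`, `N_v = 1` (`v ∤ p`),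
`N_v = p e_v/(p-1) + 1` (`v ∣ p`);  `W_v := K^×/K_{v,p}`,  `|W_v| = p²` resp. `p^(2 + e_v f_v)`;
`W := ∏_{v∈S} W_v`, `|W| = p^(2s)`;  `Ψ : K^× → W` is onto (approximation).
`T = {v_1..v_(s-1)}` primes `∉ S` such that `U_S/U_S^p → ⊕_{v∈T} k_v^×/p` has kernel exactly `⟨α⟩`
(chosen with package NS; each `v ∈ T` splits in `L`).
Key Lemma: `x ∈ U_{S∪T}`, `Ψ x = 1` ⟹ `x ∈ K^(×p)`  (else `K(x^(1/p))/K` is unramified outside
`R ⊆ T`, split at `S`, tame at `R`, and every ideal prime to `R` is `(y)·N(𝔄)` with `y` a `p`-th power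
residue at all `v ∈ R` — contradicting FI-tame).
Count: `Q := K^×/(ker Ψ · U_{S∪T})` has order `|W| / |Ψ(U_{S∪T})| = p^(2s)/p^(2s-1) = p`, and
`x ↦ ∏_{v∈S} [v]^(v(x))` induces a surjection `Q ↠ Cl(K)/N Cl(L)`.

PROVED (helper98 + SI-AN team) by the ANALYTIC route instead: `SIan.index_normClasses_le_finrank`
(`Fermat/Agent/S14/SIan/*.lean`): the universal norm index inequality `[Cl(K) : N Cl(L)] ≤ [L:K]` for
any extension of number fields (class-group `L`-functions bounded at `s = 1` through ideal counting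
with an error term, Euler products and the density of degree one primes of `L`).  The hypotheses
`ζ`, `hp`, `hunr`, Galois are not needed.  The algebraic route lives on in `SI/Asm/Main.lean`
(`SI.Asm.index_normClasses_le'`).
-/
import Fermat.Agent.S14.Defs
import Fermat.Agent.S14.SIan.Main

set_option autoImplicit false

open NumberField

namespace Fermat.Agent.S14

theorem index_normClasses_le (K L : Type*) [Field K] [NumberField K] [Field L] [NumberField L]
    [Algebra K L] {p : ℕ} (hp : p.Prime) (hp2 : p ≠ 2) [IsGalois K L]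
    (hdeg : Module.finrank K L = p) (ζ : K) (hζ : IsPrimitiveRoot ζ p)
    (hunr : UnramifiedEverywhere K L) : (normClasses K L).index ≤ p :=
  (SIan.index_normClasses_le_finrank K L).trans_eq hdeg

end Fermat.Agent.S14
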