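/-
T14 package CR (Artin's crossing step with ONE auxiliary cyclotomic field).

Setting `CATSetting p L K` (`K = ℚ(ζ_p) ⊆ L`, `[L:K] = p` unramified, `G = Gal(L/K) = ⟨σ⟩`).
`𝔞, 𝔟` primes of `K` of prime norms `a, b ∉ {p, m}`, `Frob_𝔞 = σ^i` (`p ∤ i`), `Frob_𝔟 = σ^k`;
`m ≡ 1 mod p` a prime, `a` not a `p`-th power mod `m`, `a^k ≡ b^i · (p-th power) mod m`.
Claim: `[𝔞]^k = [𝔟]^i` in `Cl(K)/N_{L/K}Cl(L)`.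

Proof.  `E⁰` = the subfield of degree `p` of `ℚ(ζ_m)`, `E = K E⁰`, `Ω = L E` (inside `L(ζ_m)`).
`L ∩ K(ζ_m) = K` because `Gal(L/ℚ)^ab = Gal(K/ℚ)` (`CATSetting.act`, `p ≥ 3`), so
`Gal(Ω/K) = G × C`, `C = Gal(E/K) ≅ (ℤ/m)^×/p`.  For a prime `𝔯 ∤ m` of `K`:
`Frob_𝔯(Ω/K) = (Frob_𝔯(L/K), [N𝔯])`.  Put `τ := [a]^(1/i) ≠ 1`, `g := (σ,τ)`, `F := Ω^⟨g⟩`.
Then `Ω/F` is cyclic of degree `p`, unramified everywhere (inertia of `Ω/K` lies in `1 × C`),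
`Ω = F L = F E`, and `Frob_𝔞 = g^i`, `Frob_𝔟 = g^k` lie in `Gal(Ω/F)`: `𝔞, 𝔟` split completely in `F`.
Take primes `𝔄 ∣ 𝔞`, `𝔅 ∣ 𝔟` of `F`:  `Art_{Ω/F}(𝔄) = g^i`, `Art_{Ω/F}(𝔅) = g^k`.
(a) cyclotomic-lift reciprocity: for `x ∈ 𝓞 F` prime to `m`, `Art_{Ω/F}((x))|_{E⁰} = [|N_{F/ℚ} x|]`,
    `F` is totally complex and every prime of `F` above `m` has `p ∣ e`, so `N_{F/ℚ} x` is a `p`-th
    power mod `m`: `Art_{Ω/F}((x)) = 1`.  Hence `Art_{Ω/F}` (on ideals prime to `m`) factors through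
    `Cl(F)` and kills `N Cl(Ω)`.
(b) SI-u (`index_normClasses_le F Ω`) + surjectivity (`Art(𝔄) = g^i ≠ 1`) ⟹ the kernel on `Cl(F)` is
    exactly `N Cl(Ω)`.
(c) `Art(𝔄^k 𝔅^(i'))= 1` for `i' ≡ -i mod p` ⟹ `[𝔄^k 𝔅^(i')] ∈ N Cl(Ω)`; apply `N_{F/K}`:
    `[𝔞]^k [𝔟]^(i') ∈ N_{Ω/K} Cl(Ω) ⊆ N_{L/K} Cl(L)`; and `[𝔟]^p ∈ N_{L/K}Cl(L)`.
-/
import Fermat.Agent.S14.Defs
import Fermat.Agent.S14.SecondInequality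
import Fermat.Agent.S14.CR.CrossingMain

set_option autoImplicit false

open NumberField nonZeroDivisors

namespace Fermat.Agent.S14

variable {p : ℕ} {L : Type} [Field L] [NumberField L] {K : IntermediateField ℚ L}

theorem crossing_step (h : CATSetting p L K) [IsGalois K L] (σ : L ≃ₐ[K] L) (hσ : σ ≠ 1)
    (𝔞 𝔟 : Ideal (𝓞 K)) [𝔞.IsPrime] [𝔟.IsPrime] (h𝔞 : 𝔞 ≠ ⊥) (h𝔟 : 𝔟 ≠ ⊥)
    (a b : ℕ) (ha : a.Prime) (hb : b.Prime) (hap : a ≠ p) (hbp : b ≠ p)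
    (hNa : Ideal.absNorm 𝔞 = a) (hNb : Ideal.absNorm 𝔟 = b)
    (i k : ℕ) (hi : ¬ p ∣ i) (hFa : frobAt K L 𝔞 = σ ^ i) (hFb : frobAt K L 𝔟 = σ ^ k)
    (m : ℕ) (hm : m.Prime) (hmp : m % p = 1) (hma : m ≠ a) (hmb : m ≠ b)
    (hanp : ¬ ∃ y : ZMod m, y ^ p = (a : ZMod m))
    (hab : ∃ y : ZMod m, (a : ZMod m) ^ k = (b : ZMod m) ^ i * y ^ p) :
    ClassGroup.mk0 ⟨𝔞, mem_nonZeroDivisors_of_ne_zero h𝔞⟩ ^ k *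
      (ClassGroup.mk0 ⟨𝔟, mem_nonZeroDivisors_of_ne_zero h𝔟⟩ ^ i)⁻¹ ∈ normClasses K L :=
  CR.crossing_step_main h σ hσ 𝔞 𝔟 h𝔞 h𝔟 a b ha hb hap hbp hNa hNb i k hi hFa hFb m hm hmp hma hmb
    hanp hab

end Fermat.Agent.S14
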