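/-
T14 package RC (reciprocity for the unramified extension of the CAT setting):
every nonzero principal ideal of `K` has trivial Artin symbol in `L/K`.

Proof.  (0) every prime `𝔮` of `K` with `Frob_𝔮 ≠ 1` has prime norm `q ≠ p`
(`CATSetting.act`: if `g = Frob(𝔔|q) ∈ Gal(L/ℚ)` acts on `ζ` by `ζ^n`, `n ≢ 1`, then `τ := g^f ∈ Gal(L/K)`
commutes with `g`, so `τ = τ^n`, `τ = 1`; and `CATSetting.split_p` for the primes above `p`).
(1) P2: for `𝔮₀, 𝔮₁` with `Frob = σ^(d₀), σ^(d₁)`, `d₀ d₁ ≢ 0`:  `[𝔮₁]^(d₀) ≡ [𝔮₀]^(d₁) mod N Cl(L)`.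
   Choose (package NS applied to `K(q₀^(1/p))/K`) a prime `m₀ ≡ 1 (p)` with `q₀` not a `p`-th power
   mod `m₀`; FI-u for `Ω₀/F₀` (as in package CR) gives a prime `𝔟` of `K` (norm a prime `b`) with
   `Frob_𝔟(Ω₀/K) = g₀^j`, `j ≢ 0`;  `crossing_step` ⟹ `[𝔮₀]^j ≡ [𝔟]^(d₀)`.
   Choose (NS applied to `K(q₁^(1/p), (q₁^j b^(-d₁))^(1/p)) / K((q₁^j b^(-d₁))^(1/p))`) a prime
   `m₁ ≡ 1 (p)` with `q₁` not a `p`-th power and `q₁^j ≡ b^(d₁)·(p-th power)` mod `m₁`;
   `crossing_step` ⟹ `[𝔮₁]^j ≡ [𝔟]^(d₁)`.  Combine (`Cl(K)/N Cl(L)` is killed by `p`).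
(2) Hence every ideal with trivial Artin symbol has class in `N Cl(L)`; `Art` is onto `G` (order `p`),
   so `[Cl(K) : N Cl(L)] ≤ p`... and `≠ 1` by FI-u (`normClasses_ne_top`), so the classes with trivial
   symbol are exactly `N Cl(L)` and `Art` factors through `Cl(K)`: principal ideals have symbol `1`.
-/
import Fermat.Agent.S14.Defs
import Fermat.Agent.S14.FirstInequality
import Fermat.Agent.S14.NonSplit
import Fermat.Agent.S14.Crossing
import Fermat.Agent.S14.RC.P2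

set_option autoImplicit false

open NumberField nonZeroDivisors

namespace Fermat.Agent.S14

variable {p : ℕ} {L : Type} [Field L] [NumberField L] {K : IntermediateField ℚ L}

theorem reciprocity_u (h : CATSetting p L K) [IsAbelianGalois K L] (x : 𝓞 K) (hx : x ≠ 0) :
    artinMap K L ⟨Ideal.span {x}, mem_nonZeroDivisors_of_ne_zero
      (by simpa [Ideal.zero_eq_bot, Ideal.span_singleton_eq_bot] using hx)⟩ = 1 := by
  by_contra hτ
  set X : (Ideal (𝓞 K))⁰ := ⟨Ideal.span {x}, mem_nonZeroDivisors_of_ne_zero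
      (by simpa [Ideal.zero_eq_bot, Ideal.span_singleton_eq_bot] using hx)⟩ with hX
  set τ := artinMap K L X with hτdef
  apply normClasses_ne_top K L h.prime h.deg (RC.isTotallyComplex h) h.unram
  rw [eq_top_iff]
  intro c _
  obtain ⟨I, rfl⟩ := ClassGroup.mk0_surjective c
  obtain ⟨j, hj, hIj⟩ := RC.exists_pow_eq h τ hτ (artinMap K L I)
  have hJ : artinMap K L (I * X ^ (p - j)) = 1 := by
    rw [map_mul, map_pow, hIj, ← hτdef, ← pow_add, Nat.add_sub_cancel' hj.le]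
    exact RC.pow_p_eq_one h τ
  have hmem := RC.mk0_mem_normClasses_of_artinMap_eq_one h _ hJ
  rw [map_mul, map_pow] at hmem
  have hX1 : ClassGroup.mk0 X = 1 := by
    rw [ClassGroup.mk0_eq_one_iff]
    exact ⟨⟨x, rfl⟩⟩
  rwa [hX1, one_pow, mul_one] at hmem

end Fermat.Agent.S14
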