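/-
T14: the Core Arithmetic Theorem.  No field `L` as in `CATSetting` exists.

Proof.  FI-u gives a prime `𝔮` of `K` whose class is not in `N Cl(L)`; it is not split, so
`τ := Frob_𝔮 ≠ 1`, and (as in package RC (0)) `N𝔮 = q` is a prime `≠ p`.  Package JS: there is
`J ∈ 𝓞 K` with `(J) = ∏_{t=1}^{(p-1)/2} σ_t⁻¹ 𝔮`.  Lifting `σ_t` to `σ̃_t ∈ Gal(L/ℚ)`:
`Frob(σ_t⁻¹ 𝔮) = σ̃_t⁻¹ τ σ̃_t = τ^t` (`CATSetting.act`).  Reciprocity: `1 = Art((J)) = τ^(∑ t) = τ^((p²-1)/8)`,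
and `p ∤ (p²-1)/8`, so `τ = 1`.  Contradiction.
-/
import Fermat.Agent.S14.Defs
import Fermat.Agent.S14.FirstInequality
import Fermat.Agent.S14.Jacobi
import Fermat.Agent.S14.Reciprocity
import Fermat.Agent.S14.RC.Conj

set_option autoImplicit false

open NumberField nonZeroDivisors

namespace Fermat.Agent.S14

variable {p : ℕ} {L : Type} [Field L] [NumberField L] {K : IntermediateField ℚ L}

open scoped Pointwise in
theorem cat (h : CATSetting p L K) : False := by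
  haveI := h.galois
  haveI := RC.isAbelianGalois h
  haveI := h.cyclo
  have hp := h.prime
  have hp2 : p ≠ 2 := by have := h.three_le; omega
  -- a prime of `K` with nontrivial Frobenius; it has degree one
  obtain ⟨𝔮, hp𝔮, h𝔮, -, hτ⟩ := RC.exists_prime_frobAt_ne_one h 0
  haveI := hp𝔮
  obtain ⟨q, hq, hqp, -, hN⟩ := RC.absNorm_prime_of_frobAt_ne_one h 𝔮 h𝔮 hτ
  obtain ⟨ζ, hζ⟩ := IsCyclotomicExtension.exists_isPrimitiveRoot ℚ K (S := {p}) rfl hp.ne_zero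
  obtain ⟨σ, hσ⟩ := RC.exists_family_aut_pow hp K ζ hζ
  -- Stickelberger: the half product is principal
  obtain ⟨J, hJ0, hJ⟩ := stickelberger_half_principal hp hp2 K 𝔮 q hq hqp hN ζ hζ σ hσ
  have hrec := reciprocity_u h J hJ0
  have hspan : Ideal.span {J} ∈ (Ideal (𝓞 K))⁰ := mem_nonZeroDivisors_of_ne_zero
    (by simpa [Ideal.zero_eq_bot, Ideal.span_singleton_eq_bot] using hJ0)
  have hI : (∏ t ∈ Finset.Icc 1 ((p - 1) / 2), ((σ t)⁻¹ • 𝔮)) ∈ (Ideal (𝓞 K))⁰ := by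
    rw [← hJ]
    exact hspan
  have hprod := RC.artinMap_half_prod h ζ hζ σ hσ 𝔮 h𝔮 hI
  have e : (⟨Ideal.span {J}, hspan⟩ : (Ideal (𝓞 K))⁰) =
      ⟨∏ t ∈ Finset.Icc 1 ((p - 1) / 2), ((σ t)⁻¹ • 𝔮), hI⟩ := Subtype.ext hJ
  have hrec' : artinMap K L (⟨Ideal.span {J}, hspan⟩ : (Ideal (𝓞 K))⁰) = 1 := hrec
  rw [e, hprod] at hrec'
  exact RC.not_dvd_sum_half hp h.three_le ((RC.pow_eq_one_iff_dvd h _ hτ _).1 hrec')

end Fermat.Agent.S14
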