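/-
T14 / SI: the second inequality `index_normClasses_le` of `SecondInequality.lean`, statement
VERBATIM, obtained from the ANALYTIC route (SI-AN, `SIan/Main.lean`
`index_normClasses_le_finrank : (normClasses K L).index ≤ Module.finrank K L`, which holds for every
extension of number fields and is sorry-free on main).  Drop-in replacement for the body of
`Fermat.Agent.S14.index_normClasses_le` (helper41).
-/
import Fermat.Agent.S14.SIan.Main

set_option autoImplicit false

open NumberField

namespace Fermat.Agent.S14

theorem index_normClasses_le_an (K L : Type*) [Field K] [NumberField K] [Field L] [NumberField L]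
    [Algebra K L] {p : ℕ} (_hp : p.Prime) (_hp2 : p ≠ 2) [IsGalois K L]
    (hdeg : Module.finrank K L = p) (ζ : K) (_hζ : IsPrimitiveRoot ζ p)
    (_hunr : UnramifiedEverywhere K L) : (normClasses K L).index ≤ p :=
  hdeg ▸ SIan.index_normClasses_le_finrank K L

end Fermat.Agent.S14
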